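import Fermat.Agent.M59.Top.LowerQOf
import Fermat.Agent.M59.Top.LinkSeams
import Fermat.Agent.S44.Frame

/-!
M59 / SINK A (box A0 `m59t_LowerP_stmt` + E4 `m59e_LowCore_stmt`), LEVEL 2 (helper20; ruling #48).
Prefix `m59sa_`.

Both seams of the chief are PROVED here from the cells below:

* `m59sa_lowerP_of  : BLR → GEO-LOW → A-PEU → m59t_LowerP_stmt`;
* `m59sa_lowCore_of : Entry → EXIT-RES → BLR → GEO-LOW → DICT Peu → IRR-W → UNR-ODD → MAZUR →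
                      m59e_LowCore_stmt Peu`   (for ANY Galois-side predicate `Peu`).

The module on which everything happens is ALWAYS `V := W[p](ℚ̄) = m59sa_Tors W p` (an `𝔽_p`-plane),
never the abstract space of `ρ̄`.

* `m59sa_IsCopy W p N ι`     : twin of `s44_IsCopy` (no existential integral model: `W` is fixed).
* `m59sa_IsOrdBasis W p A ζ x v a` : `x ≠ 0`, `σ x = χ(σ) x`, `σ v = v + a(σ) x` for `σ` in the
  inertia group of `A`, `v ∉ ⟨x⟩`.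
* `m59sa_PeuAt W p A ζ`      : EVERY such `(x, v, a)` has a UNIT radical `β` (`σ β = ζ ^ a(σ) β` on
  inertia).  Conditional form: nothing is claimed when there is no `χ`-line (supersingular `W`).
* **[BLR-W]**   `m59sa_BLR_stmt`    : residually modular of level `N` + irreducible ⟹ a copy of
  `W[p]` in `J₀(N)` (twin of `s44b_blr_of`; the E-side `s44b_ESide_stmt` on main is general).
* **[GEO-LOW]** `m59sa_GeoLow_stmt` : residually modular of level `M p`, a copy in `J₀(M p)`,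
  `2 ∣ M`, `p ∤ M`, `PeuAt` at the place of the frame ⟹ residually modular of level `M` (twin of `s44_low_of`, reordered as in helper29
  #5131 (L1): `x, v, a` are DERIVED from the geometry once [OLD0] fails).
* **[A-PEU]**   `m59sa_APeu_stmt`   : (Δ-side, used by box A0 only) semistable and `p ∣ ord_p Δ`
  ⟹ `PeuAt` at every place over `p`.
* **[EXIT-RES]** `m59sa_ExitRes_stmt` : `m59e_Occ p W S N` ⟹ `W.IsResiduallyModularOfLevel p N`.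
* **[DICT]**    `m59sa_PeuDict_stmt Peu` : `Peu ρ̄ p` ⟹ `PeuAt W p A ζ` (`ρ̄ ≅ W[p] ⊗ k`).
* **[IRR-W]**   `m59e_IrrW_stmt`   : pinned by the chief in `Top/LinkSeams.lean` (owner helper2).
* **[UNR-ODD]** `m59sa_UnrOdd_stmt` : `m59e_Occ` at a level prime to `q ≠ p` ⟹ `ρ̄` unramified at
  `q` (only `q = 2` is used: the detour `N → 2N → 2N/p → N/p` for odd `N`, which calls [MAZUR] at `q = 2`,
  never hard).
-/

set_option autoImplicit false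

open Polynomial CuspForm IsLocalRing WeierstrassCurve Fermat.Agent.TW Fermat.Agent.S44
  Fermat.Agent.S58
open scoped WeierstrassCurve.Affine

namespace Fermat.Agent.M59

/-- the `G_ℚ`-module `W[p]` (the type expression pinned by the chief in `Top/LinkSeams.lean`) -/
abbrev m59sa_Tors (W : WeierstrassCurve ℤ) (p : ℕ) : Type :=
  ↥(Submodule.torsionBy ℤ (s58_E W) (p : ℤ))

/-- `ι` embeds `W[p]` into `J₀(N)`, `G_ℚ`-equivariantly, with `T_ℓ = a_ℓ(W)` on the image. -/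
structure m59sa_IsCopy (W : WeierstrassCurve ℤ) (p N : ℕ) [NeZero N]
    (ι : m59sa_Tors W p →+ ModularCurve.JZero N) : Prop where
  inj : Function.Injective ι
  equiv : ∀ (σ : s44_G) (x : m59sa_Tors W p), ι (σ • x) = σ • ι x
  eigen : ∀ ℓ : Nat.Primes, W.IsGoodPrimeFor ℓ → ¬ (ℓ : ℕ) ∣ N → (ℓ : ℕ) ≠ p →
    ∀ x : m59sa_Tors W p, ModularCurve.heckeOperatorBar N ℓ (ι x) = (W.apOfModel ℓ) • ι x

/-- an ordinary-shaped basis of `W[p]` on the inertia group of `A`. -/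
structure m59sa_IsOrdBasis (W : WeierstrassCurve ℤ) (p : ℕ) (A : ValuationSubring s44_Qb)
    (ζ : s44_Qb) (x v : m59sa_Tors W p) (a : s44_G → ℕ) : Prop where
  ne : x ≠ 0
  eig : ∀ σ ∈ A.inertiaSubgroupIn ℚ, ∀ k : ℕ, σ ζ = ζ ^ k → σ • x = k • x
  ext : ∀ σ ∈ A.inertiaSubgroupIn ℚ, σ • v = v + a σ • x
  indep : ∀ m : ℤ, v ≠ m • x

/-- **peu ramifié at `A`** (Galois side, conditional form): every ordinary-shaped basis has a unit
radical. -/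
def m59sa_PeuAt (W : WeierstrassCurve ℤ) (p : ℕ) (A : ValuationSubring s44_Qb) (ζ : s44_Qb) :
    Prop :=
  ∀ (x v : m59sa_Tors W p) (a : s44_G → ℕ), m59sa_IsOrdBasis W p A ζ x v a →
    ∃ β : s44_Qb, β ≠ 0 ∧ β ∈ A ∧ β⁻¹ ∈ A ∧ ∀ σ ∈ A.inertiaSubgroupIn ℚ, σ β = ζ ^ a σ * β

/-- **[BLR-W]** -/
def m59sa_BLR_stmt : Prop :=
  ∀ (p : ℕ) [Fact p.Prime], p ≠ 2 → ∀ W : WeierstrassCurve ℤ, W.Δ ≠ 0 →
    ∀ (N : ℕ) [NeZero N], W.ModRepIsIrreducible p → W.IsResiduallyModularOfLevel p N →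
    ∃ ι : m59sa_Tors W p →+ ModularCurve.JZero N, m59sa_IsCopy W p N ι

/-- **[GEO-LOW]** the geometric core of Mazur–Ribet at `p`, EVEN level. -/
def m59sa_GeoLow_stmt : Prop :=
  ∀ (p : ℕ) (hpp : p.Prime), p = 3 ∨ p = 5 → ∀ W : WeierstrassCurve ℤ, W.Δ ≠ 0 →
    W.IsSemistableModel → W.ModRepIsIrreducible p →
    ∀ (M : ℕ) [NeZero M] [NeZero (M * p)], Squarefree M → 2 ∣ M → ¬ p ∣ M →
    W.IsResiduallyModularOfLevel p (M * p) →
    ∀ ι : m59sa_Tors W p →+ ModularCurve.JZero (M * p), m59sa_IsCopy W p (M * p) ι →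
    m59sa_PeuAt W p (s44f_A p hpp) (s44f_zeta p hpp) →
    W.IsResiduallyModularOfLevel p M

/-- **[A-PEU]** (Δ-side) `p ∣ ord_p Δ` ⟹ peu ramifié at every place over `p`. -/
def m59sa_APeu_stmt : Prop :=
  ∀ (p : ℕ) [Fact p.Prime], p ≠ 2 → ∀ W : WeierstrassCurve ℤ, W.Δ ≠ 0 →
    W.IsSemistableModel → m59t_flat W p p →
    ∀ A : ValuationSubring s44_Qb, A.LiesOverPrime p → ∀ ζ : s44_Qb, IsPrimitiveRoot ζ p →
      m59sa_PeuAt W p A ζ

/-- **[EXIT-RES]** from the machine vocabulary back to the Prelude vocabulary (mod `p`). -/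
def m59sa_ExitRes_stmt : Prop :=
  ∀ (p : ℕ) [Fact p.Prime], p = 3 ∨ p = 5 → ∀ W : WeierstrassCurve ℤ, W.Δ ≠ 0 →
    W.IsSemistableModel →
  ∀ (𝒪 : Type) [CommRing 𝒪] [IsDomain 𝒪] [IsDiscreteValuationRing 𝒪]
    [IsAdicComplete (maximalIdeal 𝒪) 𝒪] [Finite (ResidueField 𝒪)] [CharZero 𝒪],
    (p : 𝒪) ∈ maximalIdeal 𝒪 →
  ∀ ρ : GaloisRepAdic 𝒪, m59e_IsTate p W ρ →
  ∀ (S : Finset ℕ) (N : ℕ), m59e_IsBadSet W p S → Squarefree N →
    (∀ ℓ : ℕ, ℓ.Prime → ℓ ∣ N → ℓ ∈ S) →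
    m59e_Occ p W S N → W.IsResiduallyModularOfLevel p N

/-- **[DICT]** the dictionary between the predicate of [R_p-norm] and `m59sa_PeuAt`. -/
def m59sa_PeuDict_stmt (Peu : m59e_PeuPred) : Prop :=
  ∀ (p : ℕ) [Fact p.Prime], p = 3 ∨ p = 5 → ∀ W : WeierstrassCurve ℤ, W.Δ ≠ 0 →
    W.IsSemistableModel →
  ∀ (𝒪 : Type) [CommRing 𝒪] [IsDomain 𝒪] [IsDiscreteValuationRing 𝒪]
    [IsAdicComplete (maximalIdeal 𝒪) 𝒪] [Finite (ResidueField 𝒪)] [CharZero 𝒪],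
    (p : 𝒪) ∈ maximalIdeal 𝒪 →
  ∀ ρ : GaloisRepAdic 𝒪, m59e_IsTate p W ρ → Peu (ResidueField 𝒪) ρ.residual p →
    ∀ A : ValuationSubring s44_Qb, A.LiesOverPrime p → ∀ ζ : s44_Qb, IsPrimitiveRoot ζ p →
      m59sa_PeuAt W p A ζ

/-- **[IRR-W]** (kept for the files that already cite this name; it is the chief's pinned
`m59e_IrrW_stmt` of `Top/LinkSeams.lean`, closed by helper2's `m59lg_irrW`). -/
abbrev m59sa_IrrW_stmt : Prop := m59e_IrrW_stmt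

/-- **[UNR-ODD]** an eigensystem of level prime to `q` forces `ρ̄` to be unramified at `q`. -/
def m59sa_UnrOdd_stmt : Prop :=
  ∀ (p : ℕ) [Fact p.Prime], p = 3 ∨ p = 5 → ∀ W : WeierstrassCurve ℤ, W.Δ ≠ 0 →
    W.IsSemistableModel →
  ∀ (𝒪 : Type) [CommRing 𝒪] [IsDomain 𝒪] [IsDiscreteValuationRing 𝒪]
    [IsAdicComplete (maximalIdeal 𝒪) 𝒪] [Finite (ResidueField 𝒪)] [CharZero 𝒪],
    (p : 𝒪) ∈ maximalIdeal 𝒪 →
  ∀ ρ : GaloisRepAdic 𝒪, m59e_IsTate p W ρ →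
  ∀ (S : Finset ℕ) (N q : ℕ), m59e_IsBadSet W p S → Squarefree N →
    (∀ ℓ : ℕ, ℓ.Prime → ℓ ∣ N → ℓ ∈ S) → q.Prime → q ≠ p → ¬ q ∣ N →
    m59e_Occ p W S N → ρ.residual.IsUnramifiedAt q

/-- arithmetic of the level: `N = p M'` squarefree, `p` odd. -/
theorem m59sa_level_arith {p N : ℕ} (hpp : p.Prime) (hp2 : p ≠ 2) (hsq : Squarefree N)
    (hpN : p ∣ N) :
    N / p * p = N ∧ 0 < N / p ∧ Squarefree (N / p) ∧ ¬ p ∣ N / p ∧ (2 ∣ N → 2 ∣ N / p) := by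
  have hN : N / p * p = N := Nat.div_mul_cancel hpN
  have hdiv : N / p ∣ N := Nat.div_dvd_of_dvd hpN
  have hNpos : 0 < N := Nat.pos_of_ne_zero hsq.ne_zero
  refine ⟨hN, Nat.div_pos (Nat.le_of_dvd hNpos hpN) hpp.pos, hsq.squarefree_of_dvd hdiv, ?_, ?_⟩
  · rintro ⟨c, hc⟩
    have h2 : p * p ∣ N := ⟨c, by rw [← hN, hc]; ring⟩
    exact hpp.one_lt.ne' (Nat.isUnit_iff.mp (hsq p h2))
  · intro h2
    have h3 : 2 ∣ N / p * p := by rwa [hN]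
    rcases (Nat.Prime.dvd_mul Nat.prime_two).mp h3 with h | h
    · exact h
    · exact absurd ((Nat.prime_dvd_prime_iff_eq Nat.prime_two hpp).mp h).symm hp2

/-- **box A0 from [BLR-W], [GEO-LOW], [A-PEU].** -/
theorem m59sa_lowerP_of (hB : m59sa_BLR_stmt) (hG : m59sa_GeoLow_stmt) (hA : m59sa_APeu_stmt) :
    m59t_LowerP_stmt := by
  intro p hp W hΔ hW hirr hflat M hsq h2M hpM hR
  have hpp : p.Prime := by rcases hp with rfl | rfl <;> norm_num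
  have : Fact p.Prime := ⟨hpp⟩
  have hp2 : p ≠ 2 := by rcases hp with rfl | rfl <;> norm_num
  obtain ⟨hM, hpos, hsq', hpM', h2'⟩ := m59sa_level_arith hpp hp2 hsq hpM
  have : NeZero (M / p) := ⟨hpos.ne'⟩
  have : NeZero (M / p * p) := ⟨by rw [hM]; exact hsq.ne_zero⟩
  have hR' : W.IsResiduallyModularOfLevel p (M / p * p) := by rw [hM]; exact hR
  obtain ⟨ι, hι⟩ := hB p hp2 W hΔ (M / p * p) hirr hR'
  exact hG p hpp hp W hΔ hW hirr (M / p) hsq' (h2' h2M) hpM' hR' ι hι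
    (hA p hp2 W hΔ hW hflat _ (s44f_A_liesOver p hpp) _ (s44f_zeta_spec p hpp))

/-- **E4 [LOW-core] at EVEN level** from the cells. -/
theorem m59sa_lowCore_even (Peu : m59e_PeuPred) (hEn : m59e_Entry_stmt)
    (hX : m59sa_ExitRes_stmt) (hB : m59sa_BLR_stmt) (hG : m59sa_GeoLow_stmt)
    (hD : m59sa_PeuDict_stmt Peu) (hI : m59e_IrrW_stmt)
    (p : ℕ) [Fact p.Prime] (hp : p = 3 ∨ p = 5) (W : WeierstrassCurve ℤ) (hΔ : W.Δ ≠ 0)
    (hW : W.IsSemistableModel)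
    (𝒪 : Type) [CommRing 𝒪] [IsDomain 𝒪] [IsDiscreteValuationRing 𝒪]
    [IsAdicComplete (maximalIdeal 𝒪) 𝒪] [Finite (ResidueField 𝒪)] [CharZero 𝒪]
    (hp𝒪 : (p : 𝒪) ∈ maximalIdeal 𝒪) (ρ : GaloisRepAdic 𝒪) (hT : m59e_IsTate p W ρ)
    (S : Finset ℕ) (N : ℕ) (hS : m59e_IsBadSet W p S) (hsq : Squarefree N)
    (hNS : ∀ ℓ : ℕ, ℓ.Prime → ℓ ∣ N → ℓ ∈ S) (h2N : 2 ∣ N) (hpN : p ∣ N)
    (hPeu : Peu (ResidueField 𝒪) ρ.residual p) (hocc : m59e_Occ p W S N) :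
    m59e_Occ p W S (N / p) := by
  have hpp : p.Prime := Fact.out
  have hp2 : p ≠ 2 := by rcases hp with rfl | rfl <;> norm_num
  obtain ⟨hM, hpos, hsq', hpM', h2'⟩ := m59sa_level_arith hpp hp2 hsq hpN
  have : NeZero (N / p) := ⟨hpos.ne'⟩
  have : NeZero (N / p * p) := ⟨by rw [hM]; exact hsq.ne_zero⟩
  have hirr : W.ModRepIsIrreducible p := hI p hp W hΔ hW 𝒪 hp𝒪 ρ hT
  have hR : W.IsResiduallyModularOfLevel p (N / p * p) := by
    rw [hM]; exact hX p hp W hΔ hW 𝒪 hp𝒪 ρ hT S N hS hsq hNS hocc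
  obtain ⟨ι, hι⟩ := hB p hp2 W hΔ (N / p * p) hirr hR
  have hR' : W.IsResiduallyModularOfLevel p (N / p) :=
    hG p hpp hp W hΔ hW hirr (N / p) hsq' (h2' h2N) hpM' hR ι hι
      (hD p hp W hΔ hW 𝒪 hp𝒪 ρ hT hPeu _ (s44f_A_liesOver p hpp) _ (s44f_zeta_spec p hpp))
  exact hEn p W (N / p) S hpos hS
    (fun ℓ hℓ hℓd => hNS ℓ hℓ (dvd_trans hℓd (Nat.div_dvd_of_dvd hpN))) hR'

/-- **E4 [LOW-core] from the cells** (odd `N`: the detour `N → 2N → 2N/p → N/p`). -/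
theorem m59sa_lowCore_of (Peu : m59e_PeuPred) (hEn : m59e_Entry_stmt)
    (hX : m59sa_ExitRes_stmt) (hB : m59sa_BLR_stmt) (hG : m59sa_GeoLow_stmt)
    (hD : m59sa_PeuDict_stmt Peu) (hI : m59e_IrrW_stmt) (hU : m59sa_UnrOdd_stmt)
    (hMz : m59m_Mazur_stmt) : m59e_LowCore_stmt Peu := by
  intro p _ hp W hΔ hW 𝒪 _ _ _ _ _ _ hp𝒪 ρ hT S N hS h2S hsq hNS hpN hPeu hocc
  have hpp : p.Prime := Fact.out
  have hp2 : p ≠ 2 := by rcases hp with rfl | rfl <;> norm_num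
  by_cases h2N : 2 ∣ N
  · exact m59sa_lowCore_even Peu hEn hX hB hG hD hI p hp W hΔ hW 𝒪 hp𝒪 ρ hT S N hS hsq hNS h2N
      hpN hPeu hocc
  · -- the odd case
    have hNpos : 0 < N := Nat.pos_of_ne_zero hsq.ne_zero
    have hcop : Nat.Coprime N 2 :=
      Nat.coprime_comm.mp ((Nat.Prime.coprime_iff_not_dvd Nat.prime_two).mpr h2N)
    have hsq2 : Squarefree (N * 2) := by
      rw [Nat.squarefree_mul_iff]
      exact ⟨hcop, hsq, Nat.prime_two.prime.squarefree⟩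
    have hNS2 : ∀ ℓ : ℕ, ℓ.Prime → ℓ ∣ N * 2 → ℓ ∈ S := by
      intro ℓ hℓ hd
      rcases (Nat.Prime.dvd_mul hℓ).mp hd with h | h
      · exact hNS ℓ hℓ h
      · rw [(Nat.prime_dvd_prime_iff_eq hℓ Nat.prime_two).mp h]; exact h2S
    have hocc2 : m59e_Occ p W S (N * 2) :=
      m59e_occ_mono p W S (dvd_mul_right N 2) (by positivity) hNS2 hocc
    have hocc3 : m59e_Occ p W S (N * 2 / p) :=
      m59sa_lowCore_even Peu hEn hX hB hG hD hI p hp W hΔ hW 𝒪 hp𝒪 ρ hT S (N * 2) hS hsq2 hNS2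
        (dvd_mul_left 2 N) (dvd_mul_of_dvd_left hpN 2) hPeu hocc2
    have hunr : ρ.residual.IsUnramifiedAt 2 :=
      hU p hp W hΔ hW 𝒪 hp𝒪 ρ hT S N 2 hS hsq hNS Nat.prime_two (Ne.symm hp2) h2N hocc
    have hdiv : N * 2 / p = N / p * 2 := by
      rw [mul_comm N 2, Nat.mul_div_assoc 2 hpN, mul_comm]
    obtain ⟨hM, hpos, hsq', hpM', -⟩ := m59sa_level_arith hpp hp2 hsq2 (dvd_mul_of_dvd_left hpN 2)
    have hocc4 : m59e_Occ p W S (N * 2 / p / 2) :=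
      hMz p hp W hΔ hW 𝒪 hp𝒪 ρ hT S (N * 2 / p) 2 hS h2S hsq'
        (fun ℓ hℓ hd => hNS2 ℓ hℓ (dvd_trans hd (Nat.div_dvd_of_dvd (dvd_mul_of_dvd_left hpN 2))))
        Nat.prime_two (Ne.symm hp2) (by rw [hdiv]; exact dvd_mul_left 2 _)
        (fun _ => hpM') hunr (by rcases hp with rfl | rfl <;> simp [m59m_IsHard]) hocc3
    have hfin : N * 2 / p / 2 = N / p := by
      rw [hdiv]; exact Nat.mul_div_cancel _ (by norm_num)
    rwa [hfin] at hocc4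

end Fermat.Agent.M59
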