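import Fermat.Agent.M59.SinkA.Seams
import Fermat.Agent.M59.G5.Flat.Soft
import Fermat.Agent.S56.Flat.Ord.Peu2
import Fermat.Agent.S56.Flat.Setting
import Fermat.Agent.S44.ChiRam.Main

/-!
M59 / SINK A, cell **[A-PEU]**, the GOOD-REDUCTION branch (helper6; ruling #48).  Prefix `m59sag_`.

`m59sag_good` : `p` odd, `W` with good reduction at `p` (`¬ (p : ℤ) ∣ W.Δ`) ⟹ `m59sa_PeuAt W p A ζ` at
every place `A ∣ p` and for every primitive `p`-th root of unity `ζ`.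

Route (everything is on main):
* `m59gs_order m59g_locOrd` : `W(ℚ̄)[p¹]` carries an order (`ff_IsOrder`), hence ([HO], `ffh_seamHO`)
  a finite flat Hopf algebra over `ℤ_(p)`;
* `s56fb_isOrder` (S56/Flat/Bridge) : the Hopf algebra gives an order in the sense of [HOPF]
  (`mzo_IsOrder`) for the inertia group `I_A`, over `O = A ∩ ℚ̄^{I_A}` (`mzg_ctx`);
* `s56fop_main : s56fo_PeuOrder_stmt` (S56/Flat/Ord/Peu2) : an extension of `ℤ/p` by `μ_p` on inertia
  which has an order is peu ramifiée: a radical `β` with `β ^ p = 1 + p x`, `x ∈ O`; so `β` is a unit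
  of `A`.
-/

set_option autoImplicit false
set_option linter.style.haveILetI false
set_option linter.unusedSectionVars false

open IsLocalRing WeierstrassCurve Fermat.Agent.S44 Fermat.Agent.S58 Fermat.Agent.FF
  Fermat.Agent.MZ Fermat.Agent.S56 Fermat.Agent.JT3

namespace Fermat.Agent.M59

noncomputable section

/-- the inclusion `W[p] → W[p¹]` -/
def m59sag_iota (W : WeierstrassCurve ℤ) (p : ℕ) : m59sa_Tors W p →+ m59g_Tn W p 1 where
  toFun x := ⟨(x : s58_E W), by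
    have hx := x.2
    rw [Submodule.mem_torsionBy_iff] at hx ⊢
    rw [pow_one]
    exact hx⟩
  map_zero' := rfl
  map_add' _ _ := rfl

theorem m59sag_iota_coe (W : WeierstrassCurve ℤ) (p : ℕ) (x : m59sa_Tors W p) :
    ((m59sag_iota W p x : m59g_Tn W p 1) : s58_E W) = (x : s58_E W) := rfl

theorem m59sag_iota_injective (W : WeierstrassCurve ℤ) (p : ℕ) :
    Function.Injective (m59sag_iota W p) := by
  intro x y h
  apply Subtype.ext
  have := congrArg (fun z : m59g_Tn W p 1 => (z : s58_E W)) h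
  exact this

theorem m59sag_iota_smul (W : WeierstrassCurve ℤ) (p : ℕ) (σ : ff_GQ) (x : m59sa_Tors W p) :
    m59sag_iota W p (σ • x) = σ • m59sag_iota W p x := by
  apply Subtype.ext
  rfl

/-- **the order of `W[p]` at a place over a good prime `p`.** -/
theorem m59sag_order (p : ℕ) [Fact p.Prime] (hp2 : p ≠ 2) (W : WeierstrassCurve ℤ) (hΔ : W.Δ ≠ 0)
    (hgood : W.IsGoodPrimeFor p) (A : ValuationSubring ff_Qb) (hA : A.LiesOverPrime p) :
    ∃ H : Subalgebra ↥(ffi_O A ↥(ffi_L A)) (m59sa_Tors W p → ff_Qb),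
      mzo_IsOrder A ↥(A.inertiaSubgroupIn ℚ) (m59sa_Tors W p) H := by
  haveI := m59g_Tn_finite W hΔ p hp2 1
  obtain ⟨H₀, hH₀⟩ := m59gs_order (W := W) (p := p) m59g_locOrd hp2 hΔ hgood 1
  obtain ⟨H', i1, i2, h1, -, -, e, he1, he2⟩ := ffh_seamHO p _ H₀ hH₀
  haveI := h1
  have hctx := mzg_ctx p A hA
  haveI : IsDiscreteValuationRing ↥(ffi_O A ↥(ffi_L A)) := mzg_ctx_dvr p A hA
  have hord : mzo_IsOrder A ↥(A.inertiaSubgroupIn ℚ) (m59g_Tn W p 1)
      (s56fb_order ↥(ffi_O A ↥(ffi_L A)) e) :=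
    s56fb_isOrder A (fun o => hctx.mem_A o) (fun σ o => hctx.fixed o σ)
      (s56fb_lam_mem p A hA) e he1 (fun σ f g hfg => he2 (σ : ff_GQ) f g hfg)
  have hιe : ∀ (σ : ↥(A.inertiaSubgroupIn ℚ)) (x : m59sa_Tors W p),
      m59sag_iota W p (σ • x) = σ • m59sag_iota W p x := by
    intro σ x
    exact m59sag_iota_smul W p (σ : ff_GQ) x
  exact ⟨mzo_restr (⇑(m59sag_iota W p)) _,
    mzo_restr_isOrder (m59sag_iota W p) (m59sag_iota_injective W p) hιe hord⟩

/-- `#W[p] = p²` -/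
theorem m59sag_card (p : ℕ) [Fact p.Prime] (hp2 : p ≠ 2) (W : WeierstrassCurve ℤ) (hΔ : W.Δ ≠ 0) :
    Nat.card (m59sa_Tors W p) = p ^ 2 := by
  have h := s58t_card W hΔ p hp2 1
  rw [mul_one] at h
  rw [← h]
  refine Nat.card_congr (Equiv.subtypeEquivRight fun x => ?_)
  rw [Submodule.mem_torsionBy_iff, pow_one, natCast_zsmul]

theorem m59sag_tors_smul (p : ℕ) (W : WeierstrassCurve ℤ) (x : m59sa_Tors W p) : p • x = 0 := by
  apply Subtype.ext
  have h := (Submodule.mem_torsionBy_iff _ _).1 x.2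
  rw [Submodule.coe_smul_of_tower, Submodule.coe_zero, ← natCast_zsmul]
  exact h

/-- `(n : ZMod p).val • x = n • x` on a group killed by `p` -/
theorem m59sag_val_smul {G : Type} [AddCommGroup G] (p : ℕ) [NeZero p] (hG : ∀ x : G, p • x = 0)
    (n : ℕ) (x : G) : ((n : ZMod p).val) • x = n • x := by
  rw [ZMod.val_natCast]
  conv_rhs => rw [← Nat.mod_add_div n p, add_smul, mul_smul, hG, add_zero]

/-- `ζ ^ (n : ZMod p).val = ζ ^ n` for a `p`-th root of unity -/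
theorem m59sag_val_pow {L : Type} [Monoid L] (p : ℕ) [NeZero p] {ζ : L} (hζ : ζ ^ p = 1)
    (n : ℕ) : ζ ^ ((n : ZMod p).val) = ζ ^ n := by
  rw [ZMod.val_natCast]
  conv_rhs => rw [← Nat.mod_add_div n p, pow_add, pow_mul, hζ, one_pow, mul_one]

/-- **[A-PEU], the good-reduction branch.** -/
theorem m59sag_good (p : ℕ) [Fact p.Prime] (hp2 : p ≠ 2) (W : WeierstrassCurve ℤ) (hΔ : W.Δ ≠ 0)
    (hgood : W.IsGoodPrimeFor p) (A : ValuationSubring s44_Qb) (hA : A.LiesOverPrime p)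
    (ζ : s44_Qb) (hζ : IsPrimitiveRoot ζ p) : m59sa_PeuAt W p A ζ := by
  intro x v a hB
  have hpp : p.Prime := Fact.out
  haveI : NeZero p := ⟨hpp.ne_zero⟩
  obtain ⟨H, hH⟩ := m59sag_order p hp2 W hΔ hgood A hA
  have hctx := mzg_ctx p A hA
  haveI : IsDiscreteValuationRing ↥(ffi_O A ↥(ffi_L A)) := mzg_ctx_dvr p A hA
  haveI := m59g_Tn_finite W hΔ p hp2 1
  haveI : Finite (m59sa_Tors W p) := Finite.of_injective _ (m59sag_iota_injective W p)
  -- the cyclotomic character on inertia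
  have hk : ∀ s : ↥(A.inertiaSubgroupIn ℚ), ∃ k : ℕ, (s : s44_G) ζ = ζ ^ k := by
    intro s
    have hpow : ((s : s44_G) ζ) ^ p = 1 := by rw [← map_pow, hζ.pow_eq_one, map_one]
    obtain ⟨k, -, hk⟩ := hζ.eq_pow_of_pow_eq_one hpow
    exact ⟨k, hk.symm⟩
  choose k hk using hk
  have hL : ∀ n : ℕ, n ≠ 0 → ∃ ζ' : ff_Qb, IsPrimitiveRoot ζ' n := fun n hn => by
    haveI : NeZero n := ⟨hn⟩
    exact HasEnoughRootsOfUnity.exists_primitiveRoot ff_Qb n
  have hpG : ∀ y : m59sa_Tors W p, p • y = 0 := m59sag_tors_smul p W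
  obtain ⟨σ₀, hσ₀, k₀, hk₀, hk₀1⟩ := s44c_chiRam p hp2 A hA ζ hζ
  have hmain := s56fop_main p ↥(ffi_O A ↥(ffi_L A)) ff_Qb A ↥(A.inertiaSubgroupIn ℚ) hctx hp2 hL
    (s56fg_perf hctx) ζ hζ (m59sa_Tors W p) H hH (m59sag_card p hp2 W hΔ) hpG
    (fun s => (k s : ZMod p)) (fun s => (a (s : s44_G) : ZMod p)) x v
    (fun s => by
      show (s : s44_G) ζ = _
      rw [m59sag_val_pow p hζ.pow_eq_one, hk s])
    (by
      refine ⟨⟨σ₀, hσ₀⟩, fun h1 => hk₀1 ?_⟩
      have h2 : ζ ^ k ⟨σ₀, hσ₀⟩ = ζ ^ k₀ := by rw [← hk ⟨σ₀, hσ₀⟩]; exact hk₀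
      have h3 : ((k ⟨σ₀, hσ₀⟩ : ℕ) : ZMod p) = (k₀ : ZMod p) := by
        have := hζ.pow_inj (ZMod.val_lt ((k ⟨σ₀, hσ₀⟩ : ℕ) : ZMod p)) (ZMod.val_lt (k₀ : ZMod p))
          (by rw [m59sag_val_pow p hζ.pow_eq_one, m59sag_val_pow p hζ.pow_eq_one, h2])
        exact ZMod.val_injective p this
      rw [h1] at h3
      have h4 : ((k₀ : ℤ) : ZMod p) = ((1 : ℤ) : ZMod p) := by
        rw [Int.cast_natCast, Int.cast_one, ← h3]
      exact (ZMod.intCast_eq_intCast_iff _ _ _).1 h4)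
    hB.ne
    (fun s => by
      rw [m59sag_val_smul p hpG]
      exact hB.eig (s : s44_G) s.2 (k s) (hk s))
    (fun s => by
      rw [m59sag_val_smul p hpG]
      exact hB.ext (s : s44_G) s.2)
    (fun n => by
      have := hB.indep (n : ℤ)
      rwa [natCast_zsmul] at this)
  obtain ⟨β, x₀, hβ0, hβs, hβp⟩ := hmain
  have hx₀A : algebraMap ↥(ffi_O A ↥(ffi_L A)) ff_Qb x₀ ∈ A := hctx.mem_A x₀
  have hpm : A.valuation ((p : ff_Qb) * algebraMap ↥(ffi_O A ↥(ffi_L A)) ff_Qb x₀) < 1 := by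
    rw [map_mul]
    exact mul_lt_one_of_nonneg_of_lt_one_left zero_le
      ((A.mem_nonunits_iff).1 hctx.r_mem) ((A.valuation_le_one_iff _).2 hx₀A)
  -- `β ^ p` is a unit of `A`
  have hv1 : A.valuation (β ^ p) = 1 := by
    rw [hβp]
    have h1 := hpm
    have h2 := Valuation.map_add_eq_of_lt_left A.valuation (x := (1 : ff_Qb))
      (y := (p : ff_Qb) * algebraMap ↥(ffi_O A ↥(ffi_L A)) ff_Qb x₀) (by rwa [map_one])
    rw [h2, map_one]
  have hv : A.valuation β = 1 := by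
    rw [map_pow] at hv1
    exact (pow_eq_one_iff.1 hv1).resolve_right hpp.ne_zero
  refine ⟨β, hβ0, ?_, ?_, ?_⟩
  · rw [← A.valuation_le_one_iff, hv]
  · rw [← A.valuation_le_one_iff, map_inv₀, hv, inv_one]
  · intro σ hσ
    have := hβs ⟨σ, hσ⟩
    rw [m59sag_val_pow p hζ.pow_eq_one] at this
    exact this

/-- **[A-PEU-mult]** the multiplicative branch of [A-PEU]: `p ∣ Δ`, `p ∣ ord_p Δ`. -/
def m59sag_APeuMult_stmt : Prop :=
  ∀ (p : ℕ) [Fact p.Prime], p ≠ 2 → ∀ W : WeierstrassCurve ℤ, W.Δ ≠ 0 →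
    W.IsSemistableModel → (p : ℤ) ∣ W.Δ → m59t_flat W p p →
    ∀ A : ValuationSubring s44_Qb, A.LiesOverPrime p → ∀ ζ : s44_Qb, IsPrimitiveRoot ζ p →
      m59sa_PeuAt W p A ζ

/-- **[A-PEU] from its multiplicative branch** (the good-reduction branch is `m59sag_good`). -/
theorem m59sag_apeu_of (hM : m59sag_APeuMult_stmt) : m59sa_APeu_stmt := by
  intro p _ hp2 W hΔ hW hflat A hA ζ hζ
  by_cases hgood : W.IsGoodPrimeFor p
  · exact m59sag_good p hp2 W hΔ hgood A hA ζ hζ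
  · exact hM p hp2 W hΔ hW (not_not.1 hgood) hflat A hA ζ hζ

end

end Fermat.Agent.M59
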