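import Fermat.Agent.M59.SinkA.APeuMultEta
import Fermat.Agent.M59.SinkA.APeuGood

/-!
M59 / SINK A, cell **[A-PEU]**, the MULTIPLICATIVE branch (helper6; ruling #48), part 4: ASSEMBLY.
Prefix `m59sam_`.

* `m59sam_mult : m59sag_APeuMult_stmt` : `W / ℤ` semistable, `p` odd, `p ∣ Δ`, `p ∣ ord_p Δ` ⟹
  `m59sa_PeuAt W p A ζ` at every place `A ∣ p`;
* `m59sam_apeu : m59sa_APeu_stmt` : **[A-PEU] CLOSED** (with the good branch `m59sag_good`).

Given an ordinary-shaped basis `(x, v, a)` of `W[p]` on the inertia group `I_A`: `χ ≠ 1` on `I_A`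
(`s44c_chiRam`) and `σ x - x ∈ Z = W[p] ∩ E₁` put `x` in `Z`, so `Z = ⟨x⟩` and `v ∉ Z`; the annulus
estimate at `v₀ = j v` (`j = 1` or `2`) and main's `s44p_peu_curve` give a unit `β'` with
`σ β' = ζ ^ (j a(σ)) β'`; `β = β' ^ j'`, `j j' ≡ 1 mod p`.
-/

set_option autoImplicit false
set_option linter.unusedSectionVars false

namespace Fermat.Agent.M59

open WeierstrassCurve WeierstrassCurve.Affine WeierstrassCurve.Affine.Point IsLocalRing
  Fermat.Agent.S58 Fermat.Agent.S05 Fermat.Agent.S13 Fermat.Agent.S44 Fermat.Agent.MZ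

/-- a point killed by `p` lies in a subgroup as soon as a multiple prime to `p` does -/
theorem m59sam_mem_of_zsmul_mem {G : Type*} [AddCommGroup G] (Z : AddSubgroup G) {p : ℕ}
    (hp : p.Prime) {x : G} (hpx : p • x = 0) {d : ℤ} (hd : ¬ (p : ℤ) ∣ d) (h : d • x ∈ Z) :
    x ∈ Z := by
  have hpp : Prime (p : ℤ) := Nat.prime_iff_prime_int.mp hp
  obtain ⟨u, w, huw⟩ := (hpp.irreducible.coprime_iff_not_dvd).2 hd
  have h1 : x = w • (d • x) := by
    calc x = (1 : ℤ) • x := (one_smul _ _).symm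
      _ = (u * (p : ℤ) + w * d) • x := by rw [huw]
      _ = u • ((p : ℤ) • x) + w • (d • x) := by rw [add_smul, mul_smul, mul_smul]
      _ = w • (d • x) := by rw [natCast_zsmul, hpx, smul_zero, zero_add]
  rw [h1]
  exact Z.zsmul_mem h w

/-- `x(σ T) = σ (x(T))` -/
theorem m59sam_xOf_smul (W : WeierstrassCurve ℤ) (σ : s58_G) (T : s58_E W) :
    xOf (σ • T) = σ (xOf T) := by
  rcases T with _ | ⟨x, y, h⟩
  · have : σ • (0 : s58_E W) = 0 := ga_smul_zero σ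
    change xOf (σ • (0 : s58_E W)) = σ (xOf (0 : s58_E W))
    rw [this, xOf_zero, _root_.map_zero]
  · rw [Fermat.Agent.S05.smul_some σ h]
    rfl

/-- **[A-PEU], the multiplicative branch.** -/
theorem m59sam_mult : m59sag_APeuMult_stmt := by
  intro p _ hp2 W hΔ0 hW hbad hflat A hA ζ hζ x v a hB
  classical
  have hp : p.Prime := Fact.out
  have : NeZero p := ⟨hp.ne_zero⟩
  have hc4 : ¬ (p : ℤ) ∣ W.c₄ := hW p hp hbad
  -- the two points
  obtain ⟨x', hx'def⟩ : ∃ x' : s58_E W, x' = (x : s58_E W) := ⟨_, rfl⟩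
  obtain ⟨v', hv'def⟩ : ∃ v' : s58_E W, v' = (v : s58_E W) := ⟨_, rfl⟩
  have hpx : p • x' = 0 := by
    have h := (Submodule.mem_torsionBy_iff _ _).1 x.2
    rw [natCast_zsmul] at h
    rw [hx'def]; exact h
  have hpv : p • v' = 0 := by
    have h := (Submodule.mem_torsionBy_iff _ _).1 v.2
    rw [natCast_zsmul] at h
    rw [hv'def]; exact h
  have hx0 : x' ≠ 0 := by
    intro h0
    apply hB.ne
    apply Subtype.ext
    rw [← hx'def, h0]
    rfl
  -- the relations in `W(ℚ̄)`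
  have heig : ∀ σ ∈ A.inertiaSubgroupIn ℚ, ∀ k : ℕ, σ ζ = ζ ^ k → σ • x' = k • x' := by
    intro σ hσ k hk
    have h := congrArg (fun z : m59sa_Tors W p => (z : s58_E W)) (hB.eig σ hσ k hk)
    rw [hx'def]
    exact h
  have hext : ∀ σ ∈ A.inertiaSubgroupIn ℚ, σ • v' = v' + a σ • x' := by
    intro σ hσ
    have h := congrArg (fun z : m59sa_Tors W p => (z : s58_E W)) (hB.ext σ hσ)
    rw [hx'def, hv'def]
    exact h
  have hind : ∀ m : ℤ, v' ≠ m • x' := by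
    intro m h
    apply hB.indep m
    apply Subtype.ext
    rw [hx'def, hv'def] at h
    exact h
  -- `x ∈ Z`
  obtain ⟨σ₀, hσ₀, k₀, hk₀, hk₀1⟩ := s44c_chiRam p hp2 A hA ζ hζ
  have hxZ : x' ∈ m59sam_Z W A hp hp2 hA := by
    have h1 := m59sam_Z_inertia hp hp2 hA hbad hc4 hσ₀ hpx
    rw [heig σ₀ hσ₀ k₀ hk₀] at h1
    have h2 : ((k₀ : ℤ) - 1) • x' = k₀ • x' - x' := by
      rw [sub_smul, natCast_zsmul, one_smul]
    rw [← h2] at h1
    refine m59sam_mem_of_zsmul_mem _ hp hpx (fun hd => hk₀1 ?_) h1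
    exact (Int.modEq_iff_dvd.2 hd).symm
  have hgen : ∀ T ∈ m59sam_Z W A hp hp2 hA, ∃ k : ℕ, k < p ∧ T = k • x' := fun T hT =>
    m59sam_gen hΔ0 hp hp2 hA hbad hc4 hxZ hx0 hT
  have hnotZ : ∀ d : ℤ, ¬ (p : ℤ) ∣ d → d • v' ∉ m59sam_Z W A hp hp2 hA := by
    intro d hd h
    have h1 := m59sam_mem_of_zsmul_mem _ hp hpv hd h
    obtain ⟨k, -, hk⟩ := hgen v' h1
    exact hind (k : ℤ) (by rw [natCast_zsmul]; exact hk)
  have hvk : ¬ InKerRed A v' := by
    intro h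
    refine hnotZ 1 (fun hd => ?_) (by rw [one_smul]; exact ⟨hpv, h⟩)
    have := Int.eq_one_of_dvd_one (by positivity) hd
    have h1 : p = 1 := by exact_mod_cast this
    exact hp.one_lt.ne' h1
  -- (T1)
  obtain ⟨j, hj, n, hn⟩ := m59sam_eta_val_W hΔ0 hp hp2 hA hbad hc4 hflat hpv hvk
  have hjp : ¬ (p : ℤ) ∣ (j : ℤ) := by
    intro hd
    have h1 : p ∣ j := by exact_mod_cast hd
    have h2 := Nat.le_of_dvd (by rcases hj with rfl | rfl <;> norm_num) h1
    have h3 := hp.two_le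
    rcases hj with rfl | rfl
    · omega
    · exact hp2 (by omega)
  have h2jp : ¬ (p : ℤ) ∣ ((2 * j : ℕ) : ℤ) := by
    intro hd
    have h1 : p ∣ 2 * j := by exact_mod_cast hd
    rcases (Nat.Prime.dvd_mul hp).1 h1 with h | h
    · exact hp2 ((Nat.prime_dvd_prime_iff_eq hp Nat.prime_two).1 h)
    · exact hjp (by exact_mod_cast h)
  obtain ⟨v₀, hv₀def⟩ : ∃ v₀ : s58_E W, v₀ = j • v' := ⟨_, rfl⟩
  rw [← hv₀def] at hn
  have hv₀Z : v₀ ∉ m59sam_Z W A hp hp2 hA := by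
    rw [hv₀def, ← natCast_zsmul]
    exact hnotZ _ hjp
  have h2v₀Z : (2 : ℕ) • v₀ ∉ m59sam_Z W A hp hp2 hA := by
    rw [hv₀def, ← mul_nsmul', ← natCast_zsmul]
    exact hnotZ _ h2jp
  have hpv₀ : p • v₀ = 0 := by rw [hv₀def, smul_comm, hpv, nsmul_zero]
  -- the character
  have hchi : ∀ g : ↥(A.inertiaSubgroupIn ℚ), ∃ i : ℕ, i < p ∧ ζ ^ i = (g : s58_G) ζ := by
    intro g
    refine hζ.eq_pow_of_pow_eq_one ?_
    rw [← map_pow, hζ.pow_eq_one, map_one]
  set χ : ↥(A.inertiaSubgroupIn ℚ) → ZMod p := fun g => (((hchi g).choose : ℕ) : ZMod p)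
    with hχdef
  have hχval : ∀ g, (χ g).val = (hchi g).choose := fun g =>
    ZMod.val_natCast_of_lt (hchi g).choose_spec.1
  have hp0 : ((p : ℕ) : s58_Qb) ≠ 0 := by exact_mod_cast hp.ne_zero
  obtain ⟨β', hβ'1, hβ'⟩ := s44p_peu_curve (p := p) (G := ↥(A.inertiaSubgroupIn ℚ))
    (W := ((s58_WQ W)⁄s58_Qb)) A hp2 hp0 two_ne_zero
    (fun g => DistribSMul.toAddMonoidHom (s58_E W) (g : s58_G))
    (fun g T => m59sam_xOf_smul W (g : s58_G) T)
    hζ χ (fun g => ((j * a (g : s58_G) : ℕ) : ZMod p))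
    (fun g => by
      rw [hχval]
      exact (hchi g).choose_spec.2.symm)
    hpx
    (fun m hm => by
      have hmem : m.val • x' ∈ m59sam_Z W A hp hp2 hA := (m59sam_Z W A hp hp2 hA).nsmul_mem hxZ _
      rcases hmem.2 with h0 | h0
      · exact absurd ((s44p_val_smul_eq_zero_iff hpx hx0 m).mp h0) hm
      · exact h0)
    (v := v₀)
    (by
      by_contra h
      exact hv₀Z ⟨hpv₀, Or.inr h⟩)
    (by
      by_contra h
      exact h2v₀Z ⟨by rw [smul_comm, hpv₀, smul_zero], Or.inr h⟩)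
    (fun m h => h2v₀Z (h ▸ (m59sam_Z W A hp hp2 hA).nsmul_mem hxZ _))
    (fun g => by
      rw [hχval]
      exact heig g g.2 _ (hchi g).choose_spec.2.symm)
    (fun g => by
      rw [ZMod.val_natCast, s44p_mod_smul hpx]
      show (g : s58_G) • v₀ = _
      rw [hv₀def, nf_smul_nsmul, hext g g.2, nsmul_add, mul_nsmul'])
    (c := ((p : ℕ) : s58_Qb) ^ n) (zpow_ne_zero _ hp0)
    (fun g => by
      change (g : s58_G) (((p : ℕ) : s58_Qb) ^ n) = _
      rw [map_zpow₀, map_natCast])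
    hn
  -- the inverse of `j` modulo `p`
  obtain ⟨j', hj'⟩ : ∃ j' : ℕ, ∃ t : ℕ, j * j' = 1 + p * t := by
    rcases hj with rfl | rfl
    · exact ⟨1, 0, by ring⟩
    · obtain ⟨m, hm⟩ := hp.odd_of_ne_two hp2
      exact ⟨m + 1, 1, by rw [hm]; ring⟩
  obtain ⟨t, ht⟩ := hj'
  have hβ'0 : β' ≠ 0 := by
    intro h0
    rw [h0, _root_.map_zero] at hβ'1
    exact zero_ne_one hβ'1
  have hv : A.valuation (β' ^ j') = 1 := by rw [map_pow, hβ'1, one_pow]
  refine ⟨β' ^ j', pow_ne_zero _ hβ'0, ?_, ?_, ?_⟩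
  · rw [← A.valuation_le_one_iff, hv]
  · rw [← A.valuation_le_one_iff, map_inv₀, hv, inv_one]
  · intro σ hσ
    have h1 := hβ' ⟨σ, hσ⟩
    change σ β' = _ at h1
    rw [map_pow, h1, mul_pow, ← pow_mul]
    congr 1
    rw [ZMod.val_natCast]
    have h2 : ζ ^ (j * a σ % p) = ζ ^ (j * a σ) := by
      conv_rhs => rw [← Nat.mod_add_div (j * a σ) p]
      rw [pow_add, pow_mul, hζ.pow_eq_one, one_pow, mul_one]
    rw [pow_mul, h2, ← pow_mul]
    have h3 : j * a σ * j' = a σ + p * (a σ * t) := by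
      calc j * a σ * j' = a σ * (j * j') := by ring
        _ = a σ + p * (a σ * t) := by rw [ht]; ring
    rw [h3, pow_add, pow_mul, hζ.pow_eq_one, one_pow, mul_one]

/-- **[A-PEU], CLOSED.** -/
theorem m59sam_apeu : m59sa_APeu_stmt := m59sag_apeu_of m59sam_mult

end Fermat.Agent.M59
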