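import Fermat.Agent.M59.SinkA.APeuMultZ
import Fermat.Agent.S44.LocP.Annulus
import Fermat.Agent.M59.Top.Seams

/-!
M59 / SINK A, cell **[A-PEU]**, the MULTIPLICATIVE branch (helper6; ruling #48), part 3.
Prefix `m59sam_`.

THE ANNULUS ESTIMATE with an EVEN exponent: in the situation of S44/LocP/Annulus
(`ψ₂² = 4 ξ (ξ² + a ξ + b)`, `|a| = 1`, `|b| = |π| ^ (p k) < 1`), for `T ∈ W[p]`, `T ∉ E₁`, `j = 1` or
`j = 2`:  `|ψ₂²(x(j T))| = |(π²) ^ n|²`  (`m59sam_eta_val`; main's `s44p_eta_val_generic` hides that the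
exponent of `π` is even).  For `W / ℤ` semistable with `p ∣ Δ`, `ord_p Δ = p m`, at a place `A ∣ p`:
`π = √p`, so `π² = p` is fixed by the inertia group (`m59sam_eta_val_W`).
-/

set_option autoImplicit false
set_option linter.unusedSectionVars false

namespace Fermat.Agent.M59

open WeierstrassCurve WeierstrassCurve.Affine WeierstrassCurve.Affine.Point IsLocalRing
  Fermat.Agent.S58 Fermat.Agent.S05 Fermat.Agent.S13 Fermat.Agent.S44 Fermat.Agent.MZ

section Generic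

variable {K : Type*} [Field K] [DecidableEq K] {W : Affine K} {A : ValuationSubring K}

/-- **(T1), generic form, even exponent.** -/
theorem m59sam_eta_val (hW : IntegralModel W A) {e a b : K} (hN : NodeParam W e a b) (he : e ∈ A)
    (hb1 : A.valuation b < 1) {p : ℕ} (hp : p.Prime) (hp2 : p ≠ 2)
    (hva : A.valuation a = 1) (hb0 : b ≠ 0)
    (hTe : ∃ yT : K, W.Nonsingular e yT) {π : K} (hπ : π ≠ 0) {k : ℕ}
    (hβ : A.valuation b = A.valuation π ^ (p * k))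
    {T : W.Point} (hT : p • T = 0) (hT1 : ¬ InKerRed A T) :
    ∃ j : ℕ, (j = 1 ∨ j = 2) ∧ ∃ n : ℤ,
      A.valuation (psi2Sq W (xOf (j • T))) = A.valuation ((π ^ 2) ^ n) ^ 2 := by
  rcases T with _ | ⟨x, y, h⟩
  · exact absurd inKerRed_zero hT1
  have hx : x ∈ A := by
    by_contra hx
    exact hT1 ((inKerRed_some h).mpr hx)
  rcases le_or_gt 1 (A.valuation (x - e)) with h1 | h1
  · -- region (a)
    have hξ : A.valuation (x - e) = 1 :=
      le_antisymm ((A.valuation_le_one_iff _).mpr (sub_mem hx he)) h1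
    refine ⟨1, Or.inl rfl, 0, ?_⟩
    rw [one_nsmul, xOf_some, s44p_regionA hW hN he hb1 hp hp2 h hT hT1 hξ, zpow_zero,
      map_one, one_pow]
  rcases lt_or_ge (A.valuation b) (A.valuation (x - e)) with h2 | h2
  · -- region (b)
    obtain ⟨m, hm⟩ := un_M1 A.valuation hN hW.two hva hb1 hb0 h hT h2 h1
    have hfix := fa_exists_fixed_of_pow_eq A hπ hp.ne_zero hβ hm
    refine ⟨1, Or.inl rfl, m * k, ?_⟩
    rw [one_nsmul, xOf_some, s44p_regionB hW hN hva h2 h1, hfix]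
    congr 2
    rw [← zpow_natCast π 2, ← zpow_mul]
    congr 1
    push_cast
    ring
  · -- region (c)
    refine ⟨2, Or.inr rfl, 0, ?_⟩
    rw [s44p_regionC hW hN he hb1 hp hp2 hTe h hT hT1 h2, zpow_zero, map_one, one_pow]

end Generic

/-! ### The curve `W / ℤ` at a place over `p` -/

section Concrete

variable {W : WeierstrassCurve ℤ} {p : ℕ} {A : ValuationSubring s58_Qb}

/-- `|z| = |p| ^ ord_p z` for a nonzero integer `z` -/
theorem m59sam_val_int (hp : p.Prime) (hA : A.LiesOverPrime p) {z : ℤ} (hz : z ≠ 0) :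
    A.valuation ((z : ℤ) : s58_Qb) = A.valuation ((p : ℕ) : s58_Qb) ^ (padicValInt p z) := by
  have : Fact p.Prime := ⟨hp⟩
  obtain ⟨n, hn⟩ : ∃ n : ℕ, n = padicValInt p z := ⟨_, rfl⟩
  obtain ⟨u, hu⟩ := padicValInt_dvd (p := p) z
  rw [← hn] at hu ⊢
  have hpu : ¬ (p : ℤ) ∣ u := by
    rintro ⟨w, hw⟩
    have h1 : (p : ℤ) ^ (n + 1) ∣ z := ⟨w, by rw [pow_succ, mul_assoc, ← hw]; exact hu⟩
    rcases (padicValInt_dvd_iff (p := p) _ z).1 h1 with h | h
    · exact hz h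
    · omega
  have h1 : A.valuation ((u : ℤ) : s58_Qb) = 1 := (intVal_eq_one_iff A hA hp u).mpr hpu
  rw [hu]
  push_cast
  rw [map_mul, map_pow, h1, mul_one]

/-- `m59t_flat W p p` in terms of `padicValInt` -/
theorem m59sam_flat_iff : m59t_flat W p p ↔ p ∣ padicValInt p W.Δ := by
  unfold m59t_flat WeierstrassCurve.IsPeuRamifieeAt
  have h1 : (W.map (Int.castRingHom ℚ)).Δ = ((W.Δ : ℤ) : ℚ) := by
    rw [WeierstrassCurve.map_Δ]; rfl
  rw [h1, padicValRat.of_int]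
  exact Int.natCast_dvd_natCast

variable [DecidableEq (ResidueField A)]

/-- **the nodal parametrisation of `W` at a place of multiplicative reduction**, with
`|b| = |π| ^ (p m)`, `π² = p`. -/
theorem m59sam_nodeParam_W (hΔ0 : W.Δ ≠ 0) (hp : p.Prime) (hp2 : p ≠ 2) (hA : A.LiesOverPrime p)
    (hbad : (p : ℤ) ∣ W.Δ) (hc4 : ¬ (p : ℤ) ∣ W.c₄) (hflat : m59t_flat W p p) :
    ∃ (e a b π : s58_Qb) (m : ℕ), NodeParam ((s58_WQ W)⁄s58_Qb) e a b ∧ e ∈ A ∧
      A.valuation a = 1 ∧ A.valuation b < 1 ∧ b ≠ 0 ∧ π ^ 2 = ((p : ℕ) : s58_Qb) ∧ π ≠ 0 ∧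
      A.valuation b = A.valuation π ^ (p * m) := by
  obtain ⟨r, t, s₁, s₂, H, hr, ht, hs, hcc, h2⟩ := m59gq_nodeData hp hp2 hA hbad hc4
  obtain ⟨e, a, b, hN, he, -, hva, hvb⟩ := m59sam_nodeParam A H h2 hs hr hcc
  -- `|c| = |Δ|`
  have hΔ : A.valuation ((s58_WQ W)⁄s58_Qb).Δ =
      A.valuation (m59gq_c ((s58_WQ W)⁄s58_Qb) r t s₁ s₂) := by
    rw [m59gq_node_Δ H, m59gq_node_c6 H, map_mul]
    have h1 : A.valuation (((s₁ - s₂) ^ 2) ^ 3) = 1 := by
      rw [map_pow, map_pow, hs, one_pow, one_pow]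
    have h864 : A.valuation (864 : s58_Qb) ≤ 1 := by
      have : (864 : s58_Qb) = ((864 : ℤ) : s58_Qb) := by norm_num
      rw [this]
      exact (A.valuation_le_one_iff _).2 (intCast_mem A 864)
    have h432 : A.valuation (432 : s58_Qb) ≤ 1 := by
      have : (432 : s58_Qb) = ((432 : ℤ) : s58_Qb) := by norm_num
      rw [this]
      exact (A.valuation_le_one_iff _).2 (intCast_mem A 432)
    have h3 : A.valuation (-(864 * m59gq_c ((s58_WQ W)⁄s58_Qb) r t s₁ s₂) +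
        432 * m59gq_c ((s58_WQ W)⁄s58_Qb) r t s₁ s₂) < 1 := by
      refine lt_of_le_of_lt (Valuation.map_add _ _ _) (max_lt ?_ ?_)
      · rw [Valuation.map_neg, map_mul]
        exact mul_lt_one_of_nonneg_of_lt_one_right h864 zero_le hcc
      · rw [map_mul]
        exact mul_lt_one_of_nonneg_of_lt_one_right h432 zero_le hcc
    have h4 : -((s₁ - s₂) ^ 2) ^ 3 - 864 * m59gq_c ((s58_WQ W)⁄s58_Qb) r t s₁ s₂ +
        432 * m59gq_c ((s58_WQ W)⁄s58_Qb) r t s₁ s₂ =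
        -((s₁ - s₂) ^ 2) ^ 3 + (-(864 * m59gq_c ((s58_WQ W)⁄s58_Qb) r t s₁ s₂) +
          432 * m59gq_c ((s58_WQ W)⁄s58_Qb) r t s₁ s₂) := by ring
    rw [h4, Valuation.map_add_eq_of_lt_left _ (by rw [Valuation.map_neg, h1]; exact h3),
      Valuation.map_neg, h1, mul_one]
  have hΔv : A.valuation ((s58_WQ W)⁄s58_Qb).Δ =
      A.valuation ((p : ℕ) : s58_Qb) ^ (padicValInt p W.Δ) := by
    rw [s58m_curve_Δ]
    exact m59sam_val_int hp hA hΔ0
  obtain ⟨m, hm⟩ := m59sam_flat_iff.1 hflat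
  obtain ⟨π, hπ⟩ := IsAlgClosed.exists_pow_nat_eq ((p : ℕ) : s58_Qb) (n := 2) (by norm_num)
  have hp0 : ((p : ℕ) : s58_Qb) ≠ 0 := by exact_mod_cast hp.ne_zero
  have hπ0 : π ≠ 0 := by
    rintro rfl
    rw [zero_pow two_ne_zero] at hπ
    exact hp0 hπ.symm
  have hcv : A.valuation (m59gq_c ((s58_WQ W)⁄s58_Qb) r t s₁ s₂) ≠ 0 := by
    rw [← hΔ, hΔv]
    exact pow_ne_zero _ ((Valuation.ne_zero_iff _).2 hp0)
  have hvb1 : A.valuation b < 1 := by
    by_contra hge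
    rw [not_lt] at hge
    have : 1 ≤ A.valuation b ^ 2 := one_le_pow₀ hge
    rw [hvb] at this
    exact absurd hcc (not_lt.2 this)
  have hb0 : b ≠ 0 := by
    rintro rfl
    rw [_root_.map_zero, zero_pow two_ne_zero] at hvb
    exact hcv hvb.symm
  refine ⟨e, a, b, π, m, hN, he, hva, hvb1, hb0, hπ, hπ0, ?_⟩
  apply (pow_left_inj₀ zero_le zero_le two_ne_zero).mp
  rw [hvb, ← hΔ, hΔv, hm, ← hπ, map_pow, ← pow_mul, ← pow_mul]
  congr 1
  ring

end Concrete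

section TwoTorsion

variable {K : Type*} [Field K] {W : Affine K}

/-- the `2`-torsion point over a root of `ψ₂²` -/
theorem m59sam_twoTorsion (h2 : (2 : K) ≠ 0) (hΔ : W.Δ ≠ 0) {e : K} (he : psi2Sq W e = 0) :
    ∃ yT : K, W.Nonsingular e yT := by
  refine ⟨-(W.a₁ * e + W.a₃) / 2, (W.equation_iff_nonsingular_of_Δ_ne_zero hΔ).mp ?_⟩
  rw [equation_iff]
  have h4 : (4 : K) ≠ 0 := by
    have : (4 : K) = 2 * 2 := by norm_num
    rw [this]; exact mul_ne_zero h2 h2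
  simp only [psi2Sq, WeierstrassCurve.b₂, WeierstrassCurve.b₄, WeierstrassCurve.b₆] at he
  apply mul_left_cancel₀ h4
  field_simp
  linear_combination (-1 : K) * he

end TwoTorsion

section ConcreteEta

variable {W : WeierstrassCurve ℤ} {p : ℕ} {A : ValuationSubring s58_Qb}
  [DecidableEq (ResidueField A)]

/-- **(T1) for `W / ℤ`** semistable at `p ∣ Δ` with `p ∣ ord_p Δ`: the exponent is a power of
`p` itself. -/
theorem m59sam_eta_val_W (hΔ0 : W.Δ ≠ 0) (hp : p.Prime) (hp2 : p ≠ 2) (hA : A.LiesOverPrime p)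
    (hbad : (p : ℤ) ∣ W.Δ) (hc4 : ¬ (p : ℤ) ∣ W.c₄) (hflat : m59t_flat W p p)
    {T : s58_E W} (hT : p • T = 0) (hT1 : ¬ InKerRed A T) :
    ∃ j : ℕ, (j = 1 ∨ j = 2) ∧ ∃ n : ℤ,
      A.valuation (psi2Sq ((s58_WQ W)⁄s58_Qb) (xOf (j • T))) =
        A.valuation (((p : ℕ) : s58_Qb) ^ n) ^ 2 := by
  classical
  obtain ⟨e, a, b, π, m, hN, he, hva, hvb1, hb0, hπ, hπ0, hvb⟩ :=
    m59sam_nodeParam_W hΔ0 hp hp2 hA hbad hc4 hflat
  have hW := m59sam_integral W hp hp2 hA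
  have hpsie : psi2Sq ((s58_WQ W)⁄s58_Qb) e = 0 := by rw [hN.un_psi2Sq e]; ring
  have hTe := m59sam_twoTorsion (W := ((s58_WQ W)⁄s58_Qb)) two_ne_zero (s58top_Δ_ne_zero hΔ0) hpsie
  obtain ⟨j, hj, n, hn⟩ := m59sam_eta_val hW hN he hvb1 hp hp2 hva hb0 hTe hπ0 hvb hT hT1
  exact ⟨j, hj, n, by rw [hn, hπ]⟩

end ConcreteEta

end Fermat.Agent.M59
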