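import Fermat.Agent.M59.G5.OrdQ.Line
import Fermat.Agent.S05.UnCentered

/-!
M59 / SINK A, cell **[A-PEU]**, the MULTIPLICATIVE branch (helper6; ruling #48), part 1.
Prefix `m59sam_`.

FROM THE LIFTED NODE TO S05's `NodeParam`.  `W` in lifted nodal form at `(r, t)` with slopes
`s₁, s₂` (`m59gq_Node`, M59/G5/OrdQ/Chord.lean), `c = m59gq_c`, `d = (s₁ - s₂)²`:

  `ψ₂²(r + ξ) = 4 ξ³ + d ξ² + 4 c`.

If `|c| < 1`, `|d| = 1`, `|2| = 1` and `K` is algebraically closed there is a root `ξ₁` with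
`|ξ₁| < 1`, `|ξ₁|² = |c|`; with `e = r + ξ₁`, `a = 3 ξ₁ + d / 4`, `b = ξ₁ (3 ξ₁ + d / 2)`:
`NodeParam W e a b`, `|a| = 1`, `|b|² = |c|`  (`m59sam_nodeParam`).
-/

set_option autoImplicit false
set_option linter.unusedSectionVars false

namespace Fermat.Agent.M59

open WeierstrassCurve WeierstrassCurve.Affine Polynomial Fermat.Agent.S05

section Root

variable {K : Type*} [Field K] [IsAlgClosed K] (A : ValuationSubring K)

/-- a monic polynomial whose constant term is in the maximal ideal has a root in the maximal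
ideal. -/
theorem m59sam_exists_small_root {P : K[X]} (hP : P.Monic)
    (h0 : A.valuation (P.coeff 0) < 1) : ∃ ρ : K, P.IsRoot ρ ∧ A.valuation ρ < 1 := by
  by_contra hcon
  push Not at hcon
  have hsp : P.Splits := IsAlgClosed.splits P
  have h1 := hsp.coeff_zero_eq_prod_roots_of_monic hP
  have h2 : 1 ≤ A.valuation P.roots.prod := by
    rw [← Multiset.prod_hom P.roots A.valuation]
    refine Multiset.one_le_prod ?_
    intro a ha
    obtain ⟨ρ, hρ, rfl⟩ := Multiset.mem_map.1 ha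
    exact hcon ρ ((mem_roots hP.ne_zero).1 hρ)
  rw [h1, map_mul, map_pow, Valuation.map_neg, map_one, one_pow, one_mul] at h0
  exact absurd h0 (not_lt.2 h2)

end Root

section Param

variable {K : Type*} [Field K] {W : Affine K} {r t s₁ s₂ : K}

/-- `ψ₂²` in the coordinate `ξ = x - r` -/
theorem m59sam_psi2Sq (H : m59gq_Node W r t s₁ s₂) (x : K) :
    psi2Sq W x = 4 * (x - r) ^ 3 + (s₁ - s₂) ^ 2 * (x - r) ^ 2 + 4 * m59gq_c W r t s₁ s₂ := by
  simp only [psi2Sq, WeierstrassCurve.b₂, WeierstrassCurve.b₄, WeierstrassCurve.b₆, m59gq_c]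
  rw [H.ha1, H.ha2, H.ha3, H.ha4]
  ring

/-- the `NodeParam` attached to a root `ξ₁` of `4 ξ³ + d ξ² + 4 c`. -/
theorem m59sam_nodeParam_of_root (H : m59gq_Node W r t s₁ s₂) (h2 : (2 : K) ≠ 0) {ξ₁ : K}
    (hξ : 4 * ξ₁ ^ 3 + (s₁ - s₂) ^ 2 * ξ₁ ^ 2 + 4 * m59gq_c W r t s₁ s₂ = 0) :
    NodeParam W (r + ξ₁) (3 * ξ₁ + (s₁ - s₂) ^ 2 / 4) (ξ₁ * (3 * ξ₁ + (s₁ - s₂) ^ 2 / 2)) := by
  have h4 : (4 : K) ≠ 0 := by
    have : (4 : K) = 2 * 2 := by norm_num
    rw [this]; exact mul_ne_zero h2 h2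
  have hc : m59gq_c W r t s₁ s₂ = -(ξ₁ ^ 3) - (s₁ - s₂) ^ 2 * ξ₁ ^ 2 / 4 := by
    field_simp
    linear_combination hξ
  refine ⟨?_, ?_, ?_⟩
  · simp only [WeierstrassCurve.b₂]
    rw [H.ha1, H.ha2]
    field_simp
    ring
  · simp only [WeierstrassCurve.b₄]
    rw [H.ha1, H.ha3, H.ha4]
    field_simp
    ring
  · have ha6 : W.a₆ = m59gq_c W r t s₁ s₂ - (t ^ 2 - (s₁ + s₂) * r * t + s₁ * s₂ * r ^ 2 + r ^ 3) := by
      rw [m59gq_c]; ring
    simp only [WeierstrassCurve.b₆]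
    rw [H.ha3, ha6, hc]
    field_simp
    ring

end Param

section Val

variable {K : Type*} [Field K] [IsAlgClosed K] (A : ValuationSubring K) {W : Affine K}
  {r t s₁ s₂ : K}

theorem m59sam_val_four (h2 : A.valuation (2 : K) = 1) : A.valuation (4 : K) = 1 := by
  have : (4 : K) = 2 * 2 := by norm_num
  rw [this, map_mul, h2, one_mul]

theorem m59sam_val_three_le : A.valuation (3 : K) ≤ 1 := by
  have : (3 : K) = ((3 : ℤ) : K) := by norm_num
  rw [this]
  exact (A.valuation_le_one_iff _).2 (intCast_mem A 3)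

/-- **`NodeParam` of a curve in lifted nodal form with small `c`.** -/
theorem m59sam_nodeParam (H : m59gq_Node W r t s₁ s₂) (h2 : A.valuation (2 : K) = 1)
    (hs : A.valuation (s₁ - s₂) = 1) (hr : r ∈ A)
    (hc : A.valuation (m59gq_c W r t s₁ s₂) < 1) :
    ∃ e a b : K, NodeParam W e a b ∧ e ∈ A ∧ A.valuation (e - r) < 1 ∧ A.valuation a = 1 ∧
      A.valuation b ^ 2 = A.valuation (m59gq_c W r t s₁ s₂) := by
  have h2ne : (2 : K) ≠ 0 := by
    intro h0
    rw [h0, map_zero] at h2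
    exact zero_ne_one h2
  have h4 := m59sam_val_four A h2
  have h4ne : (4 : K) ≠ 0 := by
    intro h0
    rw [h0, map_zero] at h4
    exact zero_ne_one h4
  set c := m59gq_c W r t s₁ s₂ with hcdef
  set d := (s₁ - s₂) ^ 2 with hddef
  have hd : A.valuation d = 1 := by rw [hddef, map_pow, hs, one_pow]
  -- the monic cubic
  set P : K[X] := X ^ 3 + C (d / 4) * X ^ 2 + C c with hPdef
  have hdeg : (C (d / 4) * X ^ 2 + C c : K[X]).degree < ((3 : ℕ) : WithBot ℕ) := by
    refine lt_of_le_of_lt (degree_add_le _ _) (max_lt ?_ ?_)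
    · refine lt_of_le_of_lt (degree_C_mul_X_pow_le 2 _) ?_
      exact_mod_cast (by norm_num : (2 : ℕ) < 3)
    · refine lt_of_le_of_lt degree_C_le ?_
      exact_mod_cast (by norm_num : (0 : ℕ) < 3)
  have hPm : P.Monic := by
    rw [hPdef, add_assoc]
    exact monic_X_pow_add hdeg
  have hP0 : P.coeff 0 = c := by
    rw [hPdef]
    simp
  obtain ⟨ρ, hρ, hρ1⟩ := m59sam_exists_small_root A hPm (by rw [hP0]; exact hc)
  have hroot : ρ ^ 3 + d / 4 * ρ ^ 2 + c = 0 := by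
    have := hρ
    rw [IsRoot.def, hPdef] at this
    simpa using this
  have hξ : 4 * ρ ^ 3 + (s₁ - s₂) ^ 2 * ρ ^ 2 + 4 * m59gq_c W r t s₁ s₂ = 0 := by
    rw [← hddef, ← hcdef]
    field_simp at hroot
    linear_combination hroot
  have hd4 : A.valuation (d / 4) = 1 := by rw [map_div₀, hd, h4, div_one]
  have hd2 : A.valuation (d / 2) = 1 := by rw [map_div₀, hd, h2, div_one]
  have h3ρ : A.valuation (3 * ρ) < 1 := by
    rw [map_mul]
    exact mul_lt_one_of_nonneg_of_lt_one_right (m59sam_val_three_le A) zero_le hρ1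
  refine ⟨r + ρ, 3 * ρ + d / 4, ρ * (3 * ρ + d / 2), m59sam_nodeParam_of_root H h2ne hξ,
    A.add_mem _ _ hr ((A.valuation_le_one_iff _).1 hρ1.le), by rwa [add_sub_cancel_left], ?_, ?_⟩
  · rw [Valuation.map_add_eq_of_lt_right _ (by rw [hd4]; exact h3ρ), hd4]
  · have hb : A.valuation (3 * ρ + d / 2) = 1 := by
      rw [Valuation.map_add_eq_of_lt_right _ (by rw [hd2]; exact h3ρ), hd2]
    rw [map_mul, hb, mul_one]
    have h5 : ρ ^ 2 * (ρ + d / 4) = -c := by linear_combination hroot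
    have h6 : A.valuation (ρ + d / 4) = 1 := by
      rw [Valuation.map_add_eq_of_lt_right _ (by rw [hd4]; exact hρ1), hd4]
    have h7 := congrArg A.valuation h5
    rw [map_mul, h6, mul_one, map_pow, Valuation.map_neg] at h7
    exact h7

end Val

end Fermat.Agent.M59
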