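import Fermat.Agent.M59.SinkA.APeuMultNode
import Fermat.Agent.S44.LocP.Asm

/-!
M59 / SINK A, cell **[A-PEU]**, the MULTIPLICATIVE branch (helper6; ruling #48), part 2.
Prefix `m59sam_`.

`W / ℤ`, `p` odd, `p ∣ Δ`, `p ∤ c₄`, `A` a place of `ℚ̄` over `p`, `WK = W_{ℚ̄}`.
`Z := WK[p] ∩ E₁(A)` (the `p`-torsion of the kernel of reduction, `s44a_Z`) has exactly `p` elements,
is stable under the decomposition group, `σ T - T ∈ Z` for `T ∈ WK[p]` and `σ` in the inertia group,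
and inertia acts on `Z` through the cyclotomic character.  (General twins of S44/LocP/FreyLine and
of the first half of S44/LocP/Asm; the inertia statement comes from M59/G5/OrdQ.)
-/

set_option autoImplicit false
set_option linter.unusedSectionVars false

namespace Fermat.Agent.M59

open WeierstrassCurve WeierstrassCurve.Affine WeierstrassCurve.Affine.Point IsLocalRing
  Fermat.Agent.S58 Fermat.Agent.S05 Fermat.Agent.S13 Fermat.Agent.S44 Fermat.Agent.MZ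

section Concrete

variable (W : WeierstrassCurve ℤ) {p : ℕ} (A : ValuationSubring s58_Qb)

/-- the coefficients of `W_{ℚ̄}` are in `A` -/
theorem m59sam_a_mem :
    ((s58_WQ W)⁄s58_Qb).a₁ ∈ A ∧ ((s58_WQ W)⁄s58_Qb).a₂ ∈ A ∧ ((s58_WQ W)⁄s58_Qb).a₃ ∈ A ∧
      ((s58_WQ W)⁄s58_Qb).a₄ ∈ A ∧ ((s58_WQ W)⁄s58_Qb).a₆ ∈ A := by
  obtain ⟨WA, hWA, -⟩ := s58m_model W A
  have h := s58r_coeff_mem A WA
  rw [hWA] at h
  exact h

variable {A}

/-- the integral model -/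
theorem m59sam_integral (hp : p.Prime) (hp2 : p ≠ 2) (hA : A.LiesOverPrime p) :
    IntegralModel ((s58_WQ W)⁄s58_Qb) A := by
  obtain ⟨hb₂, hb₄, hb₆, hb₈⟩ := s58r_b_mem (s58m_model W A)
  exact ⟨hb₂, hb₄, hb₆, hb₈, two_unit A hA hp hp2⟩

variable {W}

/-- `Bₚ` has a coefficient which is a unit at every place over `p` -/
theorem m59sam_unit (hΔ0 : W.Δ ≠ 0) (hp : p.Prime) (hA : A.LiesOverPrime p)
    (hc4 : ¬ (p : ℤ) ∣ W.c₄) :
    ∃ i : ℕ, A.valuation ((ldB (ldPoly ((s58_WQ W)⁄s58_Qb)) p).coeff i) = 1 :=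
  mzj_eu_main W hΔ0 hp (fun h => hc4 h.1) A hA

/-- a nonzero `p`-torsion point in the kernel of reduction -/
theorem m59sam_exists_in (hΔ0 : W.Δ ≠ 0) (hp : p.Prime) (hp2 : p ≠ 2) (hA : A.LiesOverPrime p)
    (hc4 : ¬ (p : ℤ) ∣ W.c₄) :
    ∃ T : s58_E W, p • T = 0 ∧ T ≠ 0 ∧ InKerRed A T := by
  have hW := m59sam_integral W hp hp2 hA
  obtain ⟨m, hm⟩ := hp.odd_of_ne_two hp2
  have hunit := m59sam_unit hΔ0 hp hA hc4
  have hlt : A.valuation ((p : ℕ) : s58_Qb) < 1 := intVal_prime_lt_one A hA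
  rw [hm] at hunit hlt ⊢
  exact s44a_exists_tors_inKerRed A ((s58_WQ W)⁄s58_Qb) (s58top_Δ_ne_zero hΔ0) hW.b₂ hW.b₄ hW.b₆
    hW.b₈ m hlt hunit

variable [DecidableEq (ResidueField A)]

/-- a `p`-torsion point with nonsingular reduction is in the kernel of reduction -/
theorem m59sam_tors_E0 (hp : p.Prime) (hA : A.LiesOverPrime p) (hbad : (p : ℤ) ∣ W.Δ)
    (hc4 : ¬ (p : ℤ) ∣ W.c₄) {T : s58_E W} (hT : p • T = 0)
    (hT0 : T ∈ s58r_E0 (s58m_model W A)) : InKerRed A T := by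
  have hM := s58m_model W A
  have : IsAlgClosed (ResidueField A) := s58m_residue_isAlgClosed A
  have hΔk : (s58m_Wk W A).Δ = 0 := by
    rw [s58m_Wk_Δ]; exact (s58m_residue_intCast_eq_zero_iff hA hp _).mpr hbad
  have hc4k : (s58m_Wk W A).c₄ ≠ 0 := by
    rw [s58m_Wk_c₄]; exact fun h => hc4 ((s58m_residue_intCast_eq_zero_iff hA hp _).mp h)
  obtain ⟨x0, y0, α, β, HN⟩ := s58m_nodal_exists (s58m_Wk W A) hΔk hc4k
  have : Fact p.Prime := ⟨hp⟩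
  have : CharP (ResidueField A) p := by
    rw [CharP.charP_iff_prime_eq_zero hp]
    have := (s58m_residue_intCast_eq_zero_iff hA hp (p : ℤ)).mpr dvd_rfl
    rwa [Int.cast_natCast, map_natCast] at this
  have hred : s58r_red hM ⟨T, hT0⟩ = 0 := by
    apply m59gq_nodal_no_ptors HN p
    rw [← map_nsmul]
    have : p • (⟨T, hT0⟩ : s58r_E0 hM) = 0 := Subtype.ext (by
      rw [AddSubgroup.coe_nsmul]; exact hT)
    rw [this, _root_.map_zero]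
  exact (s58r_red_eq_zero_iff hM ⟨T, hT0⟩).mp hred

/-- a nonzero `p`-torsion point outside the kernel of reduction -/
theorem m59sam_exists_out (hΔ0 : W.Δ ≠ 0) (hp : p.Prime) (hp2 : p ≠ 2) (hA : A.LiesOverPrime p)
    (hbad : (p : ℤ) ∣ W.Δ) (hc4 : ¬ (p : ℤ) ∣ W.c₄) :
    ∃ T : s58_E W, p • T = 0 ∧ T ≠ 0 ∧ ¬ InKerRed A T := by
  obtain ⟨T, hT, hT0⟩ := m59gq_exists_tors_not_E0 (A := A) hp hp2 hA hΔ0 hbad hc4
  refine ⟨T, hT, ?_, ?_⟩
  · rintro rfl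
    exact hT0 (zero_mem _)
  · intro hk
    apply hT0
    exact s58m_mem_E0_of_inKerRed (s58m_model W A) hk

end Concrete

/-! ### The line `Z` -/

section Line

variable (W : WeierstrassCurve ℤ) {p : ℕ} (A : ValuationSubring s58_Qb)

/-- `Z = WK[p] ∩ E₁(A)` -/
noncomputable def m59sam_Z (hp : p.Prime) (hp2 : p ≠ 2) (hA : A.LiesOverPrime p) :
    AddSubgroup (s58_E W) :=
  s44a_Z A (m59sam_integral W hp hp2 hA) p

variable {W A}

theorem m59sam_mem_Z (hp : p.Prime) (hp2 : p ≠ 2) (hA : A.LiesOverPrime p) {T : s58_E W} :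
    T ∈ m59sam_Z W A hp hp2 hA ↔ p • T = 0 ∧ InKerRed A T := Iff.rfl

variable [DecidableEq (ResidueField A)]

/-- `|Z| = p` -/
theorem m59sam_card_Z (hΔ0 : W.Δ ≠ 0) (hp : p.Prime) (hp2 : p ≠ 2) (hA : A.LiesOverPrime p)
    (hbad : (p : ℤ) ∣ W.Δ) (hc4 : ¬ (p : ℤ) ∣ W.c₄) :
    Nat.card (m59sam_Z W A hp hp2 hA) = p :=
  s44a_card_Z A _ (s58top_Δ_ne_zero hΔ0) hp hp2 (m59sam_exists_in hΔ0 hp hp2 hA hc4)
    (m59sam_exists_out hΔ0 hp hp2 hA hbad hc4)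

/-- `Z` is generated by any of its nonzero elements -/
theorem m59sam_gen (hΔ0 : W.Δ ≠ 0) (hp : p.Prime) (hp2 : p ≠ 2) (hA : A.LiesOverPrime p)
    (hbad : (p : ℤ) ∣ W.Δ) (hc4 : ¬ (p : ℤ) ∣ W.c₄) {x₀ : s58_E W}
    (hx₀ : x₀ ∈ m59sam_Z W A hp hp2 hA) (hx₀0 : x₀ ≠ 0) {T : s58_E W}
    (hT : T ∈ m59sam_Z W A hp hp2 hA) : ∃ k : ℕ, k < p ∧ T = k • x₀ :=
  s44a_exists_nsmul_of_card hp _ (m59sam_card_Z hΔ0 hp hp2 hA hbad hc4) hx₀ hx₀0 hT

/-- `σ T - T ∈ Z` for `σ` in the inertia group and `T ∈ WK[p]` -/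
theorem m59sam_Z_inertia (hp : p.Prime) (hp2 : p ≠ 2) (hA : A.LiesOverPrime p)
    (hbad : (p : ℤ) ∣ W.Δ) (hc4 : ¬ (p : ℤ) ∣ W.c₄) {σ : s58_G}
    (hσ : σ ∈ A.inertiaSubgroupIn ℚ) {T : s58_E W} (hT : p • T = 0) :
    σ • T - T ∈ m59sam_Z W A hp hp2 hA := by
  have h1 : p • (σ • T - T) = 0 := by
    rw [nsmul_sub, ← nf_smul_nsmul, hT, ga_smul_zero, sub_zero]
  exact ⟨h1, m59sam_tors_E0 hp hA hbad hc4 h1 (m59gq_inertia_sub hp hp2 hA hbad hc4 hσ T)⟩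

/-- `Z` is stable under the decomposition group -/
theorem m59sam_Z_decomp (hp : p.Prime) (hp2 : p ≠ 2) (hA : A.LiesOverPrime p) {σ : s58_G}
    (hσ : σ ∈ A.decompositionSubgroup ℚ) {T : s58_E W}
    (hT : T ∈ m59sam_Z W A hp hp2 hA) : σ • T ∈ m59sam_Z W A hp hp2 hA := by
  obtain ⟨h1, h2⟩ := hT
  refine ⟨by rw [← nf_smul_nsmul, h1, ga_smul_zero], ?_⟩
  rcases T with _ | ⟨x, y, h⟩
  · have : σ • (0 : s58_E W) = 0 := ga_smul_zero σ
    change InKerRed A (σ • (0 : s58_E W))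
    rw [this]
    exact inKerRed_zero
  · rw [Fermat.Agent.S05.smul_some σ h]
    exact (inKerRed_some _).mpr (s58fa_not_mem_of_decomp hσ ((inKerRed_some h).mp h2))

/-- `Z` is stable under the inertia group -/
theorem m59sam_Z_stable (hp : p.Prime) (hp2 : p ≠ 2) (hA : A.LiesOverPrime p) {σ : s58_G}
    (hσ : σ ∈ A.inertiaSubgroupIn ℚ) {T : s58_E W}
    (hT : T ∈ m59sam_Z W A hp hp2 hA) : σ • T ∈ m59sam_Z W A hp hp2 hA :=
  m59sam_Z_decomp hp hp2 hA (s44a_inertia_le_decomp A hσ) hT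

end Line

/-! ### Inertia acts on `Z` through the cyclotomic character -/

section Chi

variable {W : WeierstrassCurve ℤ} {p : ℕ} {A : ValuationSubring s58_Qb}
  [DecidableEq (ResidueField A)]

/-- integers prime to `p` are units at `A ∣ p` -/
theorem m59sam_val_natCast (hp : p.Prime) (hA : A.LiesOverPrime p) {k : ℕ} (hk : ¬ p ∣ k) :
    A.valuation ((k : ℕ) : s58_Qb) = 1 := by
  have := (intVal_eq_one_iff A hA hp (k : ℤ)).mpr (fun hd => hk (by exact_mod_cast hd))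
  simpa using this

/-- `|ζ - 1| < 1` at `A ∣ p` -/
theorem m59sam_val_zeta_sub_one_lt (hp : p.Prime) (hA : A.LiesOverPrime p) {ζ : s58_Qb}
    (hζ : IsPrimitiveRoot ζ p) : A.valuation (ζ - 1) < 1 := by
  have : Fact p.Prime := ⟨hp⟩
  have h2 := s44p_val_zeta_sub_one_pow A.valuation hζ
  have hlt : A.valuation ((p : ℕ) : s58_Qb) < 1 := intVal_prime_lt_one A hA
  by_contra hge
  rw [not_lt] at hge
  have : 1 ≤ A.valuation (ζ - 1) ^ (p - 1) := one_le_pow₀ hge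
  rw [h2] at this
  exact absurd hlt (not_lt.mpr this)

/-- **(A2-VAL)**: `|x(x₀)| · |ζ - 1|² = 1` for `x₀ ∈ Z ∖ 0`. -/
theorem m59sam_val_x (hΔ0 : W.Δ ≠ 0) (hp : p.Prime) (hp2 : p ≠ 2) (hA : A.LiesOverPrime p)
    (hbad : (p : ℤ) ∣ W.Δ) (hc4 : ¬ (p : ℤ) ∣ W.c₄) {ζ : s58_Qb} (hζ : IsPrimitiveRoot ζ p)
    {x₀ : s58_E W} (hx₀ : x₀ ∈ m59sam_Z W A hp hp2 hA) (hx₀0 : x₀ ≠ 0) :
    A.valuation (xOf x₀) * A.valuation (ζ - 1) ^ 2 = 1 := by
  have hW := m59sam_integral W hp hp2 hA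
  obtain ⟨m, hm⟩ := hp.odd_of_ne_two hp2
  have hm0 : m ≠ 0 := by
    have := hp.two_le
    omega
  have hpm : (2 * m + 1).Prime := by rw [← hm]; exact hp
  have hunitB := m59sam_unit hΔ0 hp hA hc4
  rw [hm] at hunitB
  have hunit := s44a_ldC_unit A ((s58_WQ W)⁄s58_Qb) hW.b₂ hW.b₄ hW.b₆ hW.b₈ m hunitB
  have hku : ∀ k : ℕ, 0 < k → k < 2 * m + 1 → A.valuation (k : s58_Qb) = 1 := by
    intro k hk0 hk
    refine m59sam_val_natCast hp hA (fun hd => ?_)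
    have := Nat.le_of_dvd hk0 hd
    omega
  have hpx : (2 * m + 1) • x₀ = 0 := by rw [← hm]; exact hx₀.1
  have h1 := s44av_E1_val A ((s58_WQ W)⁄s58_Qb) (s58top_Δ_ne_zero hΔ0) hW hpm hku hunit x₀ hpx
    hx₀0 hx₀.2 (fun T hT hTk => by
      obtain ⟨k, -, hk⟩ := m59sam_gen hΔ0 hp hp2 hA hbad hc4 hx₀ hx₀0 (T := T)
        ⟨by rw [hm]; exact hT, hTk⟩
      exact ⟨k, hk⟩)
  have : Fact p.Prime := ⟨hp⟩
  have h2 := s44p_val_zeta_sub_one_pow A.valuation hζ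
  have e : p - 1 = 2 * m := by omega
  rw [← hm, ← h2, e, pow_mul, ← mul_pow] at h1
  exact (pow_eq_one_iff_of_nonneg zero_le hm0).mp h1

/-- **(A2-CHI)**: inertia acts on `Z` through the cyclotomic character. -/
theorem m59sam_eig (hΔ0 : W.Δ ≠ 0) (hp : p.Prime) (hp2 : p ≠ 2) (hA : A.LiesOverPrime p)
    (hbad : (p : ℤ) ∣ W.Δ) (hc4 : ¬ (p : ℤ) ∣ W.c₄) {ζ : s58_Qb} (hζ : IsPrimitiveRoot ζ p)
    {x₀ : s58_E W} (hx₀ : x₀ ∈ m59sam_Z W A hp hp2 hA) (hx₀0 : x₀ ≠ 0)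
    (σ : s58_G) (hσ : σ ∈ A.inertiaSubgroupIn ℚ) (k : ℕ) (hk : σ ζ = ζ ^ k) :
    σ • x₀ = k • x₀ := by
  classical
  have hσx := m59sam_Z_stable hp hp2 hA hσ hx₀
  obtain ⟨n, -, hn⟩ := m59sam_gen hΔ0 hp hp2 hA hbad hc4 hx₀ hx₀0 hσx
  have hxl := m59sam_val_x hΔ0 hp hp2 hA hbad hc4 hζ hx₀ hx₀0
  have hpx : p • x₀ = 0 := hx₀.1
  rcases x₀ with _ | ⟨x, y, h⟩
  · exact absurd rfl hx₀0
  rw [xOf_some] at hxl
  obtain ⟨ha1, ha2, ha3, ha4, ha6⟩ := m59sam_a_mem W A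
  have h2 : A.valuation (2 : s58_Qb) = 1 := two_unit A hA hp hp2
  have hlam1 : A.valuation (ζ - 1) < 1 := m59sam_val_zeta_sub_one_lt hp hA hζ
  have hlam0 : ζ - 1 ≠ 0 := sub_ne_zero.mpr (hζ.ne_one hp.one_lt)
  have hg : (σ : s58_Qb →+* s58_Qb) (ζ - 1) = (∑ i ∈ Finset.range k, ζ ^ i) * (ζ - 1) := by
    rw [geom_sum_mul]
    change σ (ζ - 1) = _
    rw [map_sub, map_one, hk]
  have hpk : ¬ p ∣ k := by
    intro hd
    have h1 : ζ ^ k = 1 := (hζ.pow_eq_one_iff_dvd k).mpr hd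
    rw [h1] at hk
    have : ζ = 1 := σ.injective (hk.trans (map_one σ).symm)
    exact hζ.ne_one hp.one_lt this
  have hvk : A.valuation ((k : ℕ) : s58_Qb) = 1 := m59sam_val_natCast hp hA hpk
  have hζ1 : A.valuation ζ ≤ 1 := by
    have h1 : A.valuation ζ ^ p = 1 := by rw [← map_pow, hζ.pow_eq_one, map_one]
    exact ((pow_eq_one_iff_of_nonneg zero_le hp.ne_zero).mp h1).le
  have hgc : A.valuation ((∑ i ∈ Finset.range k, ζ ^ i) - (k : s58_Qb)) < 1 := by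
    have e : (∑ i ∈ Finset.range k, ζ ^ i) - (k : s58_Qb) =
        ∑ i ∈ Finset.range k, (ζ ^ i - 1) := by
      rw [Finset.sum_sub_distrib, Finset.sum_const, Finset.card_range, nsmul_eq_mul, mul_one]
    rw [e]
    refine Valuation.map_sum_lt _ one_ne_zero fun i _ => ?_
    exact lt_of_le_of_lt (s44p_val_pow_sub_one_le A.valuation hζ1 i) hlam1
  have hg1 : A.valuation (∑ i ∈ Finset.range k, ζ ^ i) = 1 := by
    have e : (∑ i ∈ Finset.range k, ζ ^ i) =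
        (k : s58_Qb) + ((∑ i ∈ Finset.range k, ζ ^ i) - (k : s58_Qb)) := by ring
    rw [e, Valuation.map_add_eq_of_lt_left _ (by rw [hvk]; exact hgc), hvk]
  have hn' := hn
  rw [Fermat.Agent.S05.smul_some σ h] at hn'
  have hfin := s44av_chi A ((s58_WQ W)⁄s58_Qb) (s58top_Δ_ne_zero hΔ0) h2 ha1 ha2 ha3 ha4 ha6
    hlam0 hlam1 h hxl (σ : s58_Qb →+* s58_Qb) (fun z hz => inertia_sub_lt_one A hσ hz) hg hg1 hgc
    _ hn'
  have hd : (p : ℤ) ∣ (n : ℤ) - (k : ℤ) := by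
    refine (intVal_lt_one_iff A hA hp _).mp ?_
    push_cast
    exact hfin
  rw [hn]
  obtain ⟨c, hc⟩ := hd
  have e1 : ((n : ℤ) - (k : ℤ)) • Point.some x y h = 0 := by
    rw [hc, mul_zsmul, natCast_zsmul, smul_comm, hpx, zsmul_zero]
  rw [sub_zsmul, natCast_zsmul, natCast_zsmul] at e1
  exact add_neg_eq_zero.mp e1

end Chi

end Fermat.Agent.M59
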