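import Fermat.Agent.M59.SinkA.Seams
import Fermat.Agent.S44.BLR.Main

/-!
M59 / SINK A, cell [BLR-W] (helper20): `m59sa_blr : m59sa_BLR_stmt`, CLOSED over main.

Twin of `s44b_blr_of` (S44/BLR/MainOf.lean, helper18) without the change of variables: the E-side
`s44be_main` on main is stated for an arbitrary integral model `W` with `W.Δ ≠ 0`, `p ≠ 2` and
`W[p]` irreducible.
-/

set_option autoImplicit false
set_option linter.unusedSectionVars false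
set_option linter.style.haveILetI false
set_option synthInstance.maxHeartbeats 400000
set_option maxHeartbeats 1000000

noncomputable section

namespace Fermat.Agent.M59

open Fermat.Agent.JT3 Fermat.Agent.S58 Fermat.Agent.LR Fermat.Agent.S13 Fermat.Agent.S44
open ModularCurve
open WeierstrassCurve WeierstrassCurve.Affine WeierstrassCurve.Affine.Point
open scoped WeierstrassCurve.Affine

/-- **[BLR-W]**, closed. -/
theorem m59sa_blr : m59sa_BLR_stmt := by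
  classical
  intro p _ hp2 W hΔ N _ hirrW hmod
  obtain ⟨f, 𝔪, hf, h𝔪, hp𝔪, hcong⟩ := hmod
  have hpp : p.Prime := Fact.out
  have hN0 : N ≠ 0 := NeZero.ne N
  -- the finite set of bad primes
  set S : Finset ℕ := insert p (N.primeFactors ∪ W.Δ.natAbs.primeFactors) with hS
  have hpS : p ∈ S := Finset.mem_insert_self _ _
  have hNS : ∀ q : ℕ, q.Prime → q ∣ N → q ∈ S := fun q hq hqN =>
    Finset.mem_insert_of_mem (Finset.mem_union_left _ (Nat.mem_primeFactors.mpr ⟨hq, hqN, hN0⟩))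
  have hgood : ∀ ℓ : ℕ, ℓ.Prime → W.IsGoodPrimeFor ℓ → ¬ ℓ ∣ N → ℓ ≠ p → ℓ ∉ S := by
    intro ℓ hℓ hℓW hℓN hℓp hℓS
    rcases Finset.mem_insert.mp hℓS with h | h
    · exact hℓp h
    · rcases Finset.mem_union.mp h with h | h
      · exact hℓN (Nat.dvd_of_mem_primeFactors h)
      · exact hℓW (Int.natCast_dvd.mpr (Nat.dvd_of_mem_primeFactors h))
  have hbad : ∀ ℓ : ℕ, ℓ.Prime → ℓ ∉ S → W.IsGoodPrimeFor ℓ ∧ ¬ ℓ ∣ N ∧ ℓ ≠ p := by
    intro ℓ hℓ hℓS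
    refine ⟨fun h => hℓS ?_, fun h => hℓS (hNS ℓ hℓ h), fun h => hℓS (h ▸ hpS)⟩
    refine Finset.mem_insert_of_mem (Finset.mem_union_right _ (Nat.mem_primeFactors.mpr
      ⟨hℓ, Int.natCast_dvd.mp h, ?_⟩))
    exact Int.natAbs_ne_zero.mpr hΔ
  set a : ℕ → ℤ := fun ℓ => W.apOfModel ℓ with ha
  -- the nonzero eigenpoint
  obtain ⟨z, hz0, hpz, hTz⟩ := s44b_exists_eigenpoint N p S hNS hf 𝔪 h𝔪 hp𝔪 a
    (fun ℓ hℓ hℓN hℓS => hcong ℓ hℓ (hbad ℓ hℓ hℓS).1 hℓN (hbad ℓ hℓ hℓS).2.2)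
  haveI : Nontrivial ↥(s44b_ME N p S a) :=
    ⟨⟨⟨z, hpz, hTz⟩, 0, fun h => hz0 (congrArg Subtype.val h)⟩⟩
  -- the E-side
  obtain ⟨hfrobV, hspan⟩ := s44be_main W hΔ p hp2 hirrW hf 𝔪 h𝔪 hp𝔪 hcong
  have hΔQ : ((s58_WQ W)⁄s58_Qb).Δ ≠ 0 := by
    show ((W.map (Int.castRingHom ℚ)).map (algebraMap ℚ s58_Qb)).Δ ≠ 0
    rw [WeierstrassCurve.map_Δ, WeierstrassCurve.map_Δ]
    simpa using hΔ
  have hodd : Odd p := hpp.odd_of_ne_two hp2
  haveI : Finite (Submodule.torsionBy ℤ ((s58_WQ W)⁄s58_Qb).Point p) :=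
    ld_finite_torsionBy (s58_WQ W) hΔQ hodd
  have hlevV : GaloisFactorsThroughFiniteLevel
      (galoisRepModuleEnd (K := s58_Qb) ℚ (s58_WQ W) p) := prs_torsion_level (s58_WQ W) p
  have hCH := s44b_hCH (N := N) (p := p) (S := S) (a := a) hpS hNS
    (galoisRepModuleEnd (K := s58_Qb) ℚ (s58_WQ W) p) hlevV
    (fun ℓ hℓ hℓN hℓS A hA τ hτ =>
      hfrobV ℓ hℓ (hbad ℓ hℓ hℓS).1 hℓN (hbad ℓ hℓ hℓS).2.2 A hA τ hτ)
  have hfr : Module.finrank (ZMod p) (Submodule.torsionBy ℤ ((s58_WQ W)⁄s58_Qb).Point p) = 2 :=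
    ld_finrank_torsionBy (K := s58_Qb) (s58_WQ W) hΔQ hp2
  haveI : Module.Finite (ZMod p) (Submodule.torsionBy ℤ ((s58_WQ W)⁄s58_Qb).Point p) :=
    Module.finite_of_finrank_pos (by rw [hfr]; norm_num)
  obtain ⟨j, hjinj, hjeq⟩ := s44bm_copy
    (Module.finBasisOfFinrankEq (ZMod p) _ hfr)
    (galoisRepModuleEnd (K := s58_Qb) ℚ (s58_WQ W) p) (s44b_alpha N p S a) hspan hCH
  refine ⟨(s44b_ME N p S a).subtype.comp j.toAddMonoidHom, ?_, ?_, ?_⟩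
  · intro x y hxy
    apply hjinj
    apply Subtype.ext
    exact hxy
  · intro σ x
    show ((j (σ • x) : ↥(s44b_ME N p S a)) : JZero N) =
      σ • ((j x : ↥(s44b_ME N p S a)) : JZero N)
    rw [← s44b_alpha_apply, ← hjeq]
    rfl
  · intro ℓ hℓW hℓN hℓp x
    exact (j x).2.2 ℓ ℓ.2 hℓN (hgood ℓ ℓ.2 hℓW hℓN hℓp)

end Fermat.Agent.M59
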