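import Fermat.Agent.M59.SinkA.GeoLow
import Fermat.Agent.M59.SinkA.Big.Mono
import Fermat.Agent.M59.SinkA.BLR
import Fermat.Agent.M59.SinkA.APeuMult

/-!
# M59 / SINK A: [GEO-LOW] and [LOWER-P] CLOSED (helper20; prefix `m59sa_`)

* `m59sa_geoLow : m59sa_GeoLow_stmt` — Mazur–Ribet level lowering at `p ∈ {3, 5}` on a copy of
  `W[p]` in `J₀(M p)`, `M` even squarefree, given the peu-ramifié datum at `p`;
* `m59sa_lowerP : m59t_LowerP_stmt` — with [BLR-W] `m59sa_blr` and [A-PEU] `m59sam_apeu` (helper6).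

No `_stmt` hypothesis left in Sink A except [DICT] `m59sa_PeuDict_stmt Peu` (chain side).
-/

set_option autoImplicit false

namespace Fermat.Agent.M59

/-- **[GEO-LOW]**: closed. -/
theorem m59sa_geoLow : m59sa_GeoLow_stmt := m59sa_geoLow_of_mono m59samo_monoW

/-- **[LOWER-P]**: closed. -/
theorem m59sa_lowerP : m59t_LowerP_stmt := m59sa_lowerP_of m59sa_blr m59sa_geoLow m59sam_apeu

end Fermat.Agent.M59
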