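import Fermat.Agent.M59.SinkA.Bridge.FrameCor
import Fermat.Agent.S44.DQbar.Main

/-!
M59 / SINK A, cell [DICH] CLOSED for the frame `m59sa_frame2 P M hpM` (helper20): twin of
`s44dq_dich` (S44/DQbar/Main.lean, helper26); the core `s44dq_core` on main is generic in
`(M, p, A)`.  Prefix `m59sadq_`.
-/

set_option autoImplicit false
set_option linter.unusedSectionVars false
set_option linter.unusedVariables false
set_option linter.style.haveILetI false
set_option maxHeartbeats 1000000
set_option synthInstance.maxHeartbeats 400000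

noncomputable section

namespace Fermat.Agent.M59

open ModularCurve AlgebraicCurve IntermediateField IsLocalRing
open Fermat.Agent.JT3 Fermat.Agent.S24 Fermat.Agent.SS Fermat.Agent.S35 Fermat.Agent.S44

/-- **[D2]** the dichotomy cell of the frame (version 2). -/
theorem m59sadq_dich (P : m59sa_Pkg) (M : ℕ) [NeZero M] [NeZero (M * P.p)] (hpM : ¬ P.p ∣ M) :
    m59sa_Dich_stmt (m59sa_frame2 P M hpM) := by
  intro z hz has hbs hD1 hD0
  haveI : Fact P.p.Prime := ⟨P.pp⟩
  obtain ⟨c₁, -, hc₁A, h1⟩ := hD1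
  obtain ⟨c₀, -, hc₀A, h0⟩ := hD0
  obtain ⟨π, hπA, hπ0, h⟩ := s44dq_core M P.p hpM (s44f_A P.p P.pp) (s44f_A_liesOver P.p P.pp)
    z hz has hbs hc₁A hc₀A h1 h0
  exact m59sab_split2_of_pow P M hpM hπA hπ0 1 h

end Fermat.Agent.M59
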