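import Fermat.Agent.M59.SinkA.Low.Cells
import Fermat.Agent.M59.SinkA.Big.CellsEasy

/-!
# M59 / SINK A: [GEO-LOW] from [MONO-W] alone (helper20; prefix `m59sa_`)

`m59sa_geoLow_of_mono : m59sa_MonoW_stmt → m59sa_GeoLow_stmt`: every cell of [GEO-LOW] except
[H2] MONO-MAIN for the frame `m59sa_frame2` is closed over main + DTwin + TTwin.
-/

set_option autoImplicit false

namespace Fermat.Agent.M59

/-- **[BIG-W] from [MONO-W].** -/
theorem m59sa_bigW_of_monoW (h : m59sa_MonoW_stmt) : m59sa_BigW_stmt :=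
  fun P M _ _ hpM hp hW hirr hsq h2M => m59sa_bigW_of_mono h P M hpM hp hW hirr hsq h2M

/-- **[GEO-LOW] from [MONO-W].** -/
theorem m59sa_geoLow_of_mono (h : m59sa_MonoW_stmt) : m59sa_GeoLow_stmt :=
  m59sa_geoLow_of_big (m59sa_bigW_of_monoW h)

end Fermat.Agent.M59
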