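import Fermat.Agent.M59.SinkA.Low.Seams
import Fermat.Agent.S44.Old0.Frame2

/-!
M59 / SINK A, cell [OLD0] CLOSED for the frame `m59sa_frame2 P M hpM` (helper20): twins of
`s44c_level_of_eigen`, `s44c_level_of_map_tors`, `s44c_old0_frame2` (S44/Old0/{Main,Frame,Frame2},
helper1) for a package `P : m59sa_Pkg`: the integral model is `P.W` itself, so the hypothesis
`W.IsIntegralModelOf P.freyCurve` disappears; `s44c_char`, `s44c_lift` on main are generic.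
Prefix `m59sac_`.
-/

set_option autoImplicit false
set_option linter.unusedSectionVars false
set_option linter.style.haveILetI false

noncomputable section

open CongruenceSubgroup ModularCurve
open WeierstrassCurve
open Fermat.Agent.JT3 Fermat.Agent.S35 Fermat.Agent.S44

namespace Fermat.Agent.M59

/-- **[OLD-0], level-agnostic core**: a nonzero Hecke-eigen point of `J₀(M)[p](ℚ̄)` with the
eigenvalues `a_ℓ(W)` gives residual modularity of level `M`. -/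
theorem m59sac_level_of_eigen (P : m59sa_Pkg) (M : ℕ) [NeZero M]
    (z : JZero M) (hz0 : z ≠ 0) (hpz : P.p • z = 0)
    (heig : ∀ ℓ : Nat.Primes, P.W.IsGoodPrimeFor ℓ → ¬ (ℓ : ℕ) ∣ M → (ℓ : ℕ) ≠ P.p →
      heckeOperatorBar M ℓ z = (P.W.apOfModel ℓ) • z) :
    P.ModularRepOfLevel M := by
  haveI : Fact P.p.Prime := ⟨P.pp⟩
  obtain ⟨v, hv0, hv⟩ := s44c_char M P.p z hz0 hpz
  obtain ⟨g, 𝔪', hg, hmax, hpm, hcong⟩ := s44c_lift P.pp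
    {ℓ : ℕ | P.W.IsGoodPrimeFor ℓ ∧ ℓ ≠ P.p} (fun ℓ => P.W.apOfModel ℓ) v hv0
    (fun ℓ hℓ hℓM hG => hv ℓ hℓ hℓM (P.W.apOfModel ℓ) (heig ⟨ℓ, hℓ⟩ hG.1 hℓM hG.2))
  exact ⟨g, 𝔪', hg, hmax, hpm, fun ℓ hℓ hgood hℓM hℓp => hcong ℓ hℓ hℓM ⟨hgood, hℓp⟩⟩

/-- the same for the image of a copy of `W[p]` under a map of Jacobians which is
Hecke-equivariant on the `p`-torsion -/
theorem m59sac_level_of_map_tors (P : m59sa_Pkg) (N M : ℕ) [NeZero N] [NeZero M]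
    (ι : m59sa_PTors P →+ JZero N) (hι : m59sa_IsCopy P.W P.p N ι)
    (hNM : ∀ ℓ : ℕ, ℓ.Prime → ¬ ℓ ∣ M → ℓ ≠ P.p → ¬ ℓ ∣ N)
    (φ : JZero N →+ JZero M)
    (hφ : ∀ ℓ : Nat.Primes, ¬ (ℓ : ℕ) ∣ N → ∀ z : JZero N, P.p • z = 0 →
      φ (heckeOperatorBar N ℓ z) = heckeOperatorBar M ℓ (φ z))
    (y : m59sa_PTors P) (hy : φ (ι y) ≠ 0) : P.ModularRepOfLevel M := by
  have hpy : P.p • ι y = 0 := by rw [← map_nsmul, m59sa_tors_smul, map_zero]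
  refine m59sac_level_of_eigen P M (φ (ι y)) hy ?_ ?_
  · rw [← map_nsmul, hpy, map_zero]
  · intro ℓ hgood hℓM hℓp
    have hℓN : ¬ (ℓ : ℕ) ∣ N := hNM ℓ ℓ.2 hℓM hℓp
    rw [← hφ ℓ hℓN (ι y) hpy, hι.eigen ℓ hgood hℓN hℓp y, map_zsmul]

/-- **[OLD0] for the frame** -/
theorem m59sac_old0_frame2 (P : m59sa_Pkg) (M : ℕ) [NeZero M] [NeZero (M * P.p)]
    (hpM : ¬ P.p ∣ M) : m59sa_Old0_stmt (m59sa_frame2 P M hpM) := by
  intro ι hι hy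
  have hNM : ∀ ℓ : ℕ, ℓ.Prime → ¬ ℓ ∣ M → ℓ ≠ P.p → ¬ ℓ ∣ M * P.p := by
    intro ℓ hℓ hℓM hℓp h
    rcases (Nat.Prime.dvd_mul hℓ).mp h with h1 | h1
    · exact hℓM h1
    · exact hℓp ((Nat.prime_dvd_prime_iff_eq hℓ P.pp).mp h1)
  obtain ⟨y, hy | hy⟩ := hy
  · refine m59sac_level_of_map_tors P (M * P.p) M ι hι hNM (s35p_P1J M P.p) ?_ y hy
    intro ℓ hℓN z hz
    haveI : NeZero (ℓ : ℕ) := ⟨ℓ.2.ne_zero⟩
    exact s35p_P1J_hecke M P.p ℓ P.pp hpM ℓ.2 hℓN z P.p P.hp0 hz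
  · refine m59sac_level_of_map_tors P (M * P.p) M ι hι hNM (s35p_P2J M P.p) ?_ y hy
    intro ℓ hℓN z hz
    haveI : NeZero (ℓ : ℕ) := ⟨ℓ.2.ne_zero⟩
    exact s35p_P2J_hecke M P.p ℓ P.pp hpM ℓ.2 hℓN z P.p P.hp0 hz

end Fermat.Agent.M59
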