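import Fermat.Agent.M59.SinkA.Bridge.Eigen
import Fermat.Agent.S44.Tor.Main

/-!
M59 / SINK A, cell [TOR] CLOSED for the frame `m59sa_frame2 P M hpM` (helper20): twins of
`s44t_tor_of_bar` (S44/Tor/Top.lean) and `s44t_tor` (S44/Tor/Main.lean) (helper10); everything
below them on main is generic in `(M, p)`, `p` odd.  Prefix `m59sat_`.
-/

set_option autoImplicit false
set_option linter.style.haveILetI false

noncomputable section

namespace Fermat.Agent.M59

open Fermat.Agent.SS Fermat.Agent.JT3 AlgebraicCurve ModularCurve IntermediateField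
open Fermat.Agent.S44

local notation "Qb" => AlgebraicClosure ℚ

/-- **(T-TOP)** -/
theorem m59sat_tor_of_bar (P : m59sa_Pkg) (M : ℕ) [NeZero M] [NeZero (M * P.p)]
    (hpM : ¬ P.p ∣ M) (h : s44t_TorBar M P.p P.pp hpM) :
    m59sa_Tor_stmt (m59sa_frame2 P M hpM) := by
  intro z hz hsplit
  have hp0 : P.p ≠ 0 := P.pp.ne_zero
  obtain ⟨f, hf⟩ := s44b_rep_exists (M * P.p) hz
  have hc : ((P.p : Qb)) ^ 2 ≠ 0 := pow_ne_zero _ (by exact_mod_cast hp0)
  obtain ⟨hd1, hd2⟩ := hsplit _ hc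
  have h1 := s44b_depth2_any_rep (M * P.p) (s44f_A P.p P.pp) hp0 (AlgHom.id _ _) hd1 hf
  have h2 := s44b_depth2_any_rep (M * P.p) (s44f_A P.p P.pp) hp0
    (ssm_al_Wbar M P.p P.pp hpM) hd2 hf
  refine m59sab_chiEigen_of_kummer (m59sa_frame2 P M hpM) hf fun σ hσ k hk => ?_
  have hζ := s44f_zeta_spec P.p P.pp
  have hord : ∀ v : Place Qb (modularFunctionFieldBar (M * P.p)), (P.p : ℤ) ∣ v.ord f := by
    obtain ⟨-, D, -, hD⟩ := hf
    exact fun v => ⟨_, (hD v).symm⟩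
  obtain ⟨c, r, hr, hcr⟩ := h (s44f_A P.p P.pp) (s44f_A_liesOver P.p P.pp) σ hσ
    (s44f_zeta P.p P.pp) k hζ.pow_eq_one (hζ.ne_one P.pp.one_lt) hk f hf.1 hord h1 h2
  have hc0 : c ≠ 0 := by
    rintro rfl
    rw [map_zero, zero_mul, zero_mul] at hcr
    have : arithmeticGalois (modularFunctionFieldFull (M * P.p)) σ • f ≠ 0 := by
      rw [Ne, smul_eq_zero_iff_eq]; exact hf.1
    exact this hcr
  refine ⟨c, r, hc0, hr, ?_⟩
  rw [show arithmeticGalois (modularFunctionFieldFull (M * P.p)) σ • f = ss_act (M * P.p) σ f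
    from rfl, hcr]
  ring

/-- **[TOR]**: split classes are `χ`-eigen. -/
theorem m59sat_tor (P : m59sa_Pkg) (M : ℕ) [NeZero M] [NeZero (M * P.p)] (hpM : ¬ P.p ∣ M) :
    m59sa_Tor_stmt (m59sa_frame2 P M hpM) := by
  have hp2 : ¬ 2 ∣ P.p := by
    intro h2
    have h3 := (Nat.prime_dvd_prime_iff_eq Nat.prime_two P.pp).1 h2
    have := P.hp3
    omega
  exact m59sat_tor_of_bar P M hpM (s44t_torBar_of_core M P.p P.pp hp2 hpM
    (s44t_coreNFP_of M P.p P.pp hp2 hpM (s44t_absCoreLeg M P.p)))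

end Fermat.Agent.M59
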