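import Fermat.Agent.M59.SinkA.Seams

/-!
M59 / SINK A: THE PACKAGE `m59sa_Pkg` (helper20).  Prefix `m59sa_`.

A drop-in replacement of `FreyPackage` for the (N5) retyping of the S44 closure: in that closure
`P : FreyPackage` is only used through `P.p`, `P.pp`, `P.hp0`, `P.hp5`, `P.hp_odd`, `P.freyCurve`,
`P.ModularRepOfLevel`, `P.IsConductorLevel` (census: helper20 #5242).  Here:

* `P.p`, `P.pp` as before; `P.hp2 : P.p ≠ 2` and `P.hp3 : 3 ≤ P.p` replace `P.hp5`;
* `P.W : WeierstrassCurve ℤ` with `P.hΔ : P.W.Δ ≠ 0` replaces the existential integral model;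
* `P.E := s58_WQ P.W` replaces `P.freyCurve`;
* `P.ModularRepOfLevel N := P.W.IsResiduallyModularOfLevel P.p N`.
-/

set_option autoImplicit false

open WeierstrassCurve Fermat.Agent.S58

namespace Fermat.Agent.M59

/-- an odd prime `p` and an integral Weierstrass curve with `Δ ≠ 0`. -/
structure m59sa_Pkg where
  p : ℕ
  pp : p.Prime
  hp2 : p ≠ 2
  W : WeierstrassCurve ℤ
  hΔ : W.Δ ≠ 0

namespace m59sa_Pkg

variable (P : m59sa_Pkg)

theorem hp0 : P.p ≠ 0 := P.pp.ne_zero

theorem hppos : 0 < P.p := P.pp.pos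

theorem hp3 : 3 ≤ P.p := by
  have h1 := P.pp.two_le
  have h2 := P.hp2
  omega

theorem hp_odd : Odd P.p := P.pp.odd_of_ne_two P.hp2

/-- the curve over `ℚ` (replaces `P.freyCurve`) -/
abbrev E : WeierstrassCurve ℚ := s58_WQ P.W

/-- residual modularity of level `N` (replaces `P.ModularRepOfLevel N`) -/
def ModularRepOfLevel (N : ℕ) : Prop := P.W.IsResiduallyModularOfLevel P.p N

theorem modularRepOfLevel_iff (N : ℕ) :
    P.ModularRepOfLevel N ↔ P.W.IsResiduallyModularOfLevel P.p N := Iff.rfl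

theorem E_Δ_ne_zero : P.E.Δ ≠ 0 := by
  show (P.W.map (Int.castRingHom ℚ)).Δ ≠ 0
  rw [WeierstrassCurve.map_Δ]
  simpa using P.hΔ

end m59sa_Pkg

/-- `p ≠ 0` as an instance -/
instance m59sa_neZero_p (P : m59sa_Pkg) : NeZero P.p := ⟨P.hp0⟩

/-- `p` prime as a `Fact` (NOT an instance: the twins write `haveI := m59sa_fact P` where main
writes `haveI : Fact P.p.Prime := ⟨P.pp⟩`). -/
theorem m59sa_fact (P : m59sa_Pkg) : Fact P.p.Prime := ⟨P.pp⟩

/-- the `G_ℚ`-module `W[p]` of the package -/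
abbrev m59sa_PTors (P : m59sa_Pkg) : Type := m59sa_Tors P.W P.p

/-- `p • x = 0` on `W[p]` -/
theorem m59sa_tors_smul (P : m59sa_Pkg) (x : m59sa_PTors P) : P.p • x = 0 := by
  apply Subtype.ext
  have h := (Submodule.mem_torsionBy_iff _ _).1 x.2
  rw [Submodule.coe_smul_of_tower, Submodule.coe_zero, ← natCast_zsmul]
  exact h

end Fermat.Agent.M59
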